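import Fermat.Agent.FLAT.Residual
import Fermat.Agent.FLAT.Simple

/-!
# Residual data of a flat representation irreducible on decomposition

Inertia at `p` acts through the cyclic group generated by one move `γ` of a root of order `p² - 1`
of `p`; Frobenius interchanges the two eigenvalues.
-/

set_option autoImplicit false
set_option linter.unusedSectionVars false

noncomputable section

open Fermat.EC.Val IsLocalRing Matrix

namespace Fermat.FLAT

local notation "ℚbar" => AlgebraicClosure ℚ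
local notation "Γℚ" => (AlgebraicClosure ℚ ≃ₐ[ℚ] AlgebraicClosure ℚ)

variable {p : ℕ} [hp : Fact p.Prime] {A : ValuationSubring ℚbar}
  {k : Type*} [Field k]

/-- The action of a matrix representation on vectors. -/
def resAct (r : Γℚ →* Matrix (Fin 2) (Fin 2) k) (σ : Γℚ) : AddMonoid.End (Fin 2 → k) :=
  (Matrix.mulVecLin (r σ)).toAddMonoidHom

/-- The value of the action on a vector. -/
@[simp] lemma resAct_apply (r : Γℚ →* Matrix (Fin 2) (Fin 2) k) (σ : Γℚ) (x : Fin 2 → k) :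
    resAct r σ x = r σ *ᵥ x := rfl

/-- The data attached to a supersingular `r` at `A`: inertia acts through the powers of a
nonscalar `r γ` whose eigenvalues Frobenius exchanges. -/
structure SSData (p : ℕ) (A : ValuationSubring ℚbar) (r : Γℚ →* Matrix (Fin 2) (Fin 2) k) where
  /-- A root of order `p ^ 2 - 1` of `p`. -/
  π : ℚbar
  /-- The root of unity by which `γ` moves `π`. -/
  z : ℚbar
  /-- A `p`-th root of unity. -/
  ξ : ℚbar
  /-- An element of inertia moving `π` by `z`. -/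
  γ : Γℚ
  /-- A Frobenius element fixing `π`. -/
  φ : Γℚ
  /-- A natural number lifting the trace of `r γ`. -/
  t : ℕ
  /-- A natural number lifting the determinant of `r γ`; also the action of `γ` on `ξ`. -/
  χ : ℕ
  /-- The exponent by which `φ` acts on `ξ`. -/
  χ' : ℕ
  /-- `A` lies over the prime `p`. -/
  place : IsPlace A p
  /-- `p` is odd. -/
  odd : p ≠ 2
  /-- `π ^ (p ^ 2 - 1) = p`. -/
  pi_pow : π ^ (p ^ 2 - 1) = (p : ℚbar)
  /-- `z` is a primitive root of unity of order `p ^ 2 - 1`. -/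
  prim_z : IsPrimitiveRoot z (p ^ 2 - 1)
  /-- `ξ` is a primitive `p`-th root of unity. -/
  root : IsPrimitiveRoot ξ p
  /-- `γ` is in inertia. -/
  γ_mem : γ ∈ A.inertiaSubgroupIn ℚ
  /-- `γ` multiplies `π` by `z`. -/
  γ_pi : γ π = z * π
  /-- `γ` raises `ξ` to the power `χ`. -/
  γ_root : γ ξ = ξ ^ χ
  /-- `φ` is a Frobenius element at `A`. -/
  frob : A.IsFrobeniusAt φ p
  /-- `φ` fixes `π`. -/
  φ_pi : φ π = π
  /-- `φ` raises `ξ` to the power `χ'`. -/
  φ_root : φ ξ = ξ ^ χ'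
  /-- The tame group acts trivially. -/
  tame_one : ∀ τ ∈ tame A π, r τ = 1
  /-- `r γ` is not a scalar. -/
  not_scalar : ∀ s : k, r γ ≠ s • 1
  /-- The trace of `r γ` is `t`. -/
  trace_eq : (r γ).trace = (t : k)
  /-- The determinant of `r γ` is `χ`. -/
  det_eq : (r γ).det = (χ : k)
  /-- The residue of `z` is a root of the characteristic polynomial of `r γ`. -/
  res_eq : red A z ^ 2 + (χ : ResidueField A) = (t : ResidueField A) * red A z
  /-- Frobenius exchanges the eigenvalues of `r γ`. -/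
  frob_rel : r φ * r γ = ((t : k) • 1 - r γ) * r φ
  /-- Every inertia element acts as a power of `γ`, from which it differs by a tame element. -/
  inertia : ∀ σ ∈ A.inertiaSubgroupIn ℚ, ∃ i : ℕ, r σ = r γ ^ i ∧ (γ ^ i)⁻¹ * σ ∈ tame A π

/-- `p² - 1 ≠ 0`. -/
lemma sq_sub_one_ne_zero : p ^ 2 - 1 ≠ 0 := by
  have : 2 ^ 2 ≤ p ^ 2 := Nat.pow_le_pow_left hp.out.two_le 2
  omega

/-- `p` does not divide `p² - 1`. -/
lemma not_dvd_sq_sub_one : ¬ p ∣ p ^ 2 - 1 := fun hd => hp.out.not_dvd_one <| by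
  have h2 : (p ^ 2 - 1) + 1 = p ^ 2 := Nat.sub_add_cancel (Nat.one_le_pow _ _ hp.out.pos)
  exact (Nat.dvd_add_right hd).mp (h2 ▸ dvd_pow_self p two_ne_zero)

/-- Reduction is injective on roots of unity of order prime to `p`. -/
lemma red_root_eq_one (h : IsPlace A p) {n : ℕ} (hn : ¬ p ∣ n) {w : ℚbar} (hw : w ^ n = 1)
    (h1 : red A w = 1) : w = 1 :=
  root_eq_one h hn hw ((red_eq_iff h (is_root_unity h (by rintro rfl; exact hn (dvd_zero p)) hw).ge
    (Or.inr (ord_one h).ge)).mp (h1.trans red_one.symm))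

/-- An inertia-stable subgroup around a vector `x` with an additive embedding into the residue
field through which inertia acts by the tame character of `π`. -/
structure SimpleSub (A : ValuationSubring ℚbar) (r : Γℚ →* Matrix (Fin 2) (Fin 2) k) (π : ℚbar)
    (x : Fin 2 → k) (W : AddSubgroup (Fin 2 → k)) (Lf : W → ResidueField A) : Prop where
  /-- The vector lies in the subgroup. -/
  mem : x ∈ W
  /-- The embedding does not kill the vector. -/
  ne : Lf ⟨x, mem⟩ ≠ 0
  /-- Inertia preserves the subgroup. -/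
  stable : ∀ σ ∈ A.inertiaSubgroupIn ℚ, ∀ y ∈ W, r σ *ᵥ y ∈ W
  /-- The embedding is injective. -/
  inj : Function.Injective Lf
  /-- The embedding is additive. -/
  add : ∀ a b : W, Lf (a + b) = Lf a + Lf b
  /-- The embedding respects natural multiples. -/
  nat : ∀ (n : ℕ) (a b : W), (b : Fin 2 → k) = (n : k) • (a : Fin 2 → k) → Lf b = n * Lf a
  /-- Inertia becomes multiplication by the tame character. -/
  tameChar : ∀ σ ∈ A.inertiaSubgroupIn ℚ, ∀ a b : W, (b : Fin 2 → k) = r σ *ᵥ (a : Fin 2 → k) →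
    Lf b = red A (σ π / π) * Lf a

section Simple

variable [CharP k p] (r : Γℚ →* Matrix (Fin 2) (Fin 2) k)

/-- If a nonzero vector is not an eigenvector of `M` with prime field eigenvalue, it and its image
are independent over the prime field. -/
lemma pair_injective {M : Matrix (Fin 2) (Fin 2) k} {x : Fin 2 → k} (hx : x ≠ 0)
    (hnoev : ∀ n : ℕ, M *ᵥ x ≠ (n : k) • x) {a b : ZMod p}
    (hab : ZMod.castHom (dvd_refl p) k a • x + ZMod.castHom (dvd_refl p) k b • (M *ᵥ x) = 0) :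
    a = 0 ∧ b = 0 := by
  have : NeZero p := ⟨hp.out.ne_zero⟩
  set ι : ZMod p →+* k := ZMod.castHom (dvd_refl p) k
  by_cases hb : b = 0
  · subst hb
    rw [map_zero, zero_smul, add_zero, smul_eq_zero, or_iff_left hx,
      map_eq_zero_iff _ ι.injective] at hab
    exact ⟨hab, rfl⟩
  · refine absurd ?_ (hnoev (-a / b).val)
    rw [show ((-a / b).val : k) = ι (-a / b) by rw [← map_natCast ι, ZMod.natCast_zmod_val],
      map_div₀, map_neg, div_eq_inv_mul, mul_smul, neg_smul,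
      neg_eq_of_add_eq_zero_right hab, smul_smul, inv_mul_cancel₀
        ((map_ne_zero ι).mpr hb), one_smul]

/-- Every nonzero vector lies in a simple subgroup and is fixed by tame inertia. -/
lemma exists_simpleSub [Finite k] (h : IsPlace A p) (hp2 : p ≠ 2) {π : ℚbar}
    (hπ : π ^ (p ^ 2 - 1) = (p : ℚbar)) {H : Subgroup Γℚ} (G : Model A H (resAct r)) {σ₀ : Γℚ}
    (hσ₀ : σ₀ ∈ A.inertiaSubgroupIn ℚ)
    (hnoev : ∀ x : Fin 2 → k, x ≠ 0 → ∀ n : ℕ, r σ₀ *ᵥ x ≠ (n : k) • x)
    (hgen : ∀ σ ∈ A.inertiaSubgroupIn ℚ, ∃ a b : ℕ, r σ = (a : k) • 1 + (b : k) • r σ₀)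
    {x : Fin 2 → k} (hx : x ≠ 0) :
    (∀ τ ∈ tame A π, r τ *ᵥ x = x) ∧
      ∃ (W : AddSubgroup (Fin 2 → k)) (Lf : W → ResidueField A), SimpleSub A r π x W Lf := by
  classical
  have : NeZero p := ⟨hp.out.ne_zero⟩
  set ι : ZMod p →+* k := ZMod.castHom (dvd_refl p) k
  have hι : ∀ a : ZMod p, ι a = (a.val : k) := fun a => by
    rw [← map_natCast ι, ZMod.natCast_zmod_val]
  have hM : ∀ x : Fin 2 → k, p • x = 0 := fun x => by
    rw [← Nat.cast_smul_eq_nsmul k, CharP.cast_eq_zero k p, zero_smul]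
  -- the prime field span of `x` and `r σ₀ x` is stable under inertia
  let f : ZMod p × ZMod p →+ (Fin 2 → k) :=
    AddMonoidHom.mk' (fun ab => ι ab.1 • x + ι ab.2 • (r σ₀ *ᵥ x)) fun ab cd => by
      simp only [Prod.fst_add, Prod.snd_add, map_add, add_smul]; abel
  have hf : Function.Injective f := (injective_iff_map_eq_zero f).mpr fun ab hab =>
    Prod.ext (pair_injective hx (hnoev x hx) hab).1 (pair_injective hx (hnoev x hx) hab).2
  set W := f.range with hW
  have hmem : ∀ a b : ℕ, (a : k) • x + (b : k) • (r σ₀ *ᵥ x) ∈ W := fun a b =>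
    ⟨((a : ZMod p), (b : ZMod p)), by
      change ι (a : ZMod p) • x + ι (b : ZMod p) • (r σ₀ *ᵥ x) = _
      rw [map_natCast, map_natCast]⟩
  have hst : ∀ σ ∈ A.inertiaSubgroupIn ℚ, ∀ y ∈ W, r σ *ᵥ y ∈ W := by
    rintro σ hσ _ ⟨⟨a, b⟩, rfl⟩
    change r σ *ᵥ (ι a • x + ι b • (r σ₀ *ᵥ x)) ∈ W
    obtain ⟨a₁, b₁, h₁⟩ := hgen σ hσ
    obtain ⟨a₂, b₂, h₂⟩ := hgen (σ * σ₀) (mul_mem hσ hσ₀)
    rw [Matrix.mulVec_add, Matrix.mulVec_smul, Matrix.mulVec_smul, Matrix.mulVec_mulVec,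
      ← map_mul, h₁, h₂, Matrix.add_mulVec, Matrix.add_mulVec, Matrix.smul_mulVec,
      Matrix.smul_mulVec, Matrix.smul_mulVec, Matrix.smul_mulVec, Matrix.one_mulVec, hι a, hι b]
    refine add_mem ?_ ?_ <;> rw [Nat.cast_smul_eq_nsmul] <;> exact nsmul_mem (hmem _ _) _
  have hcard : Nat.card W = p ^ 2 := by
    rw [hW, ← Nat.card_congr (AddMonoidHom.ofInjective hf).toEquiv, Nat.card_prod, Nat.card_zmod,
      sq]
  have hirrW : InertiaIrred A (resAct r) W := by
    intro y _ hy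
    exact ⟨σ₀, hσ₀, fun n => by
      rw [resAct_apply, ← Nat.cast_smul_eq_nsmul k]; exact hnoev y hy n⟩
  -- the model makes it simple: inertia acts through the tame character
  obtain ⟨-, -, htame, Lf, hLf, hLσ⟩ :=
    G.simple_structure hM (W := W) (fun σ hσ y hy => hst σ hσ y hy) hcard hirrW h hp2 hπ
  have hxW : x ∈ W := by simpa using hmem 1 0
  refine ⟨fun τ hτ => htame τ hτ x hxW, W, Lf, hxW, fun e0 => hx ?_, hst, hLf, map_add Lf,
    fun n a b hab => ?_, fun σ hσ a b hab => ?_⟩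
  · exact congrArg Subtype.val (hLf (e0.trans (map_zero Lf).symm))
  · rw [show b = n • a from Subtype.ext (by rw [hab, AddSubgroup.coe_nsmul,
      Nat.cast_smul_eq_nsmul]), map_nsmul, nsmul_eq_mul]
  · rw [← hLσ σ hσ a]
    exact congrArg Lf (Subtype.ext hab)

variable {r} {π : ℚbar} {x : Fin 2 → k} {W : AddSubgroup (Fin 2 → k)} {Lf : W → ResidueField A}
  (S : SimpleSub A r π x W Lf) {γ : Γℚ} (hγ : γ ∈ A.inertiaSubgroupIn ℚ)
include S hγ

/-- A natural scalar on a simple subgroup is the value of the tame character. -/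
lemma SimpleSub.red_eq_natCast {n : ℕ} (hn : r γ = (n : k) • 1) :
    red A (γ π / π) = (n : ResidueField A) := by
  have hxg : r γ *ᵥ x = (n : k) • x := by rw [hn, Matrix.smul_mulVec, Matrix.one_mulVec]
  have hb : (n : k) • x ∈ W := hxg ▸ S.stable γ hγ x S.mem
  have h1 := S.tameChar γ hγ ⟨x, S.mem⟩ ⟨_, hb⟩ hxg.symm
  rw [S.nat n ⟨x, S.mem⟩ ⟨_, hb⟩ rfl] at h1
  exact (mul_right_cancel₀ S.ne h1).symm

/-- A quadratic equation over the prime field of `r γ` holds for the tame character. -/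
lemma SimpleSub.red_sq {t c : ℕ} (hquad : r γ * r γ = (-(c : k)) • 1 + (t : k) • r γ) :
    red A (γ π / π) ^ 2 + (c : ResidueField A) = (t : ResidueField A) * red A (γ π / π) := by
  set u := red A (γ π / π)
  set y : W := ⟨r γ *ᵥ x, S.stable γ hγ x S.mem⟩
  set y₂ : W := ⟨r γ *ᵥ (r γ *ᵥ x), S.stable γ hγ _ (S.stable γ hγ x S.mem)⟩
  have e1 : Lf y = u * _ := S.tameChar γ hγ ⟨x, S.mem⟩ y rfl
  have e2 : Lf y₂ = u * _ := S.tameChar γ hγ y y₂ rfl
  have h6 : (t • y : W) = y₂ + c • (⟨x, S.mem⟩ : W) := Subtype.ext (by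
    simp only [AddSubgroup.coe_nsmul, AddSubgroup.coe_add, y, y₂, Matrix.mulVec_mulVec,
      hquad, Matrix.add_mulVec, Matrix.smul_mulVec, Matrix.one_mulVec, ← Nat.cast_smul_eq_nsmul k]
    module)
  have e4 : Lf (t • y) = Lf y₂ + Lf (c • (⟨x, S.mem⟩ : W)) := by rw [h6, S.add]
  rw [S.nat _ y (t • y) (by rw [AddSubgroup.coe_nsmul, Nat.cast_smul_eq_nsmul]),
    S.nat _ ⟨x, S.mem⟩ (c • _) (by rw [AddSubgroup.coe_nsmul, Nat.cast_smul_eq_nsmul]), e2, e1]
    at e4
  exact mul_right_cancel₀ S.ne (by linear_combination -e4)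

/-- If the tame character of `σ` is `t` minus that of `γ`, so is `r σ` on the vector. -/
lemma SimpleSub.mulVec_eq {σ : Γℚ} (hσ : σ ∈ A.inertiaSubgroupIn ℚ) {t : ℕ}
    (hred : red A (σ π / π) = (t : ResidueField A) - red A (γ π / π)) :
    r σ *ᵥ x = ((t : k) • 1 - r γ) *ᵥ x := by
  set v : W := ⟨_, S.mem⟩
  set a : W := ⟨_, S.stable σ hσ _ v.2⟩
  set b : W := ⟨_, S.stable γ hγ _ v.2⟩
  have h3 : Lf (a + b) = Lf (t • v) := by
    rw [S.add, S.tameChar σ hσ v a rfl, S.tameChar γ hγ v b rfl, hred,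
      S.nat _ v (t • v) (by rw [AddSubgroup.coe_nsmul, Nat.cast_smul_eq_nsmul])]
    ring
  have h4 : (a : Fin 2 → k) + (b : Fin 2 → k) = t • (v : Fin 2 → k) :=
    congrArg Subtype.val (S.inj h3)
  rw [Matrix.sub_mulVec, Matrix.smul_mulVec, Matrix.one_mulVec, Nat.cast_smul_eq_nsmul]
  exact eq_sub_of_add_eq h4

end Simple

section Move

variable (h : IsPlace A p) {π z : ℚbar} (hπ : π ^ (p ^ 2 - 1) = (p : ℚbar))
  (hz : IsPrimitiveRoot z (p ^ 2 - 1)) {γ : Γℚ} (hγ : γ ∈ A.inertiaSubgroupIn ℚ)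
  (hγπ : γ π = z * π)
include h hz

/-- The reduction of `z` still has exact order `p² - 1`. -/
lemma dvd_of_red_pow_eq_one {m : ℕ} (hm : red A z ^ m = 1) : p ^ 2 - 1 ∣ m :=
  hz.dvd_of_pow_eq_one m (red_root_eq_one h not_dvd_sq_sub_one
    (by rw [← pow_mul, mul_comm, pow_mul, hz.pow_eq_one, one_pow])
    (by rw [red_pow h (is_root_unity h sq_sub_one_ne_zero hz.pow_eq_one).ge, hm]))

/-- The reduction of `z` is not in the prime field. -/
lemma red_root_pow_ne : red A z ^ p ≠ red A z := by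
  have he0 : p ^ 2 - 1 ≠ 0 := sq_sub_one_ne_zero
  set u := red A z with hu
  intro e
  have hu0 : u ≠ 0 := fun e0 => by
    have h1 : u ^ (p ^ 2 - 1) = 1 := by
      rw [hu, ← red_pow h (is_root_unity h he0 hz.pow_eq_one).ge, hz.pow_eq_one, red_one]
    rw [e0, zero_pow he0] at h1
    exact zero_ne_one h1
  have h1 : u ^ (p - 1) = 1 := mul_right_cancel₀ hu0 (by
    rw [← pow_succ, Nat.sub_add_cancel hp.out.one_le, one_mul, e])
  have h3 := Nat.le_of_dvd (by have := hp.out.two_le; omega) (dvd_of_red_pow_eq_one h hz h1)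
  have : p * 2 ≤ p ^ 2 := by rw [sq]; exact Nat.mul_le_mul_left p hp.out.two_le
  omega

include hγ hγπ hπ

/-- The tame character at the powers of the move. -/
lemma red_move_pow (m : ℕ) : red A ((γ ^ m) π / π) = red A z ^ m := by
  rw [move_pow h not_dvd_sq_sub_one hz.pow_eq_one hγ hγπ,
    mul_div_cancel_right₀ _ (is_pi h sq_sub_one_ne_zero hπ).1,
    red_pow h (is_root_unity h sq_sub_one_ne_zero hz.pow_eq_one).ge]

end Move

/-- The coefficients of a quadratic equation of a non-scalar matrix are trace and determinant. -/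
lemma coeff_eq_trace_det {g : Matrix (Fin 2) (Fin 2) k} (hns : ∀ s : k, g ≠ s • 1) {a b : k}
    (hab : g * g = a • 1 + b • g) : b = g.trace ∧ a = -g.det := by
  rw [DS.mul_self_eq, sub_eq_add_neg, ← neg_smul] at hab
  by_cases hb : b = g.trace
  · refine ⟨hb, ?_⟩
    have h0 := congrFun (congrFun hab 0) 0
    rw [hb] at h0
    simp at h0
    linear_combination -h0
  · refine absurd ?_ (hns ((-g.det - a) / (b - g.trace)))
    rw [← sub_eq_zero]
    refine smul_right_injective _ (sub_ne_zero.mpr hb) ?_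
    simp only [smul_zero, smul_sub, smul_smul, mul_div_cancel₀ _ (sub_ne_zero.mpr hb), sub_smul]
    linear_combination (norm := abel) -hab

/-- A root outside the prime field of a quadratic equation over it has conjugate `t - u`. -/
lemma root_pow_eq_sub {R : Type*} [Field R] [CharP R p] {u : R} {t c : ℕ} (hu : u ^ p ≠ u)
    (hres : u ^ 2 + (c : R) = (t : R) * u) : u ^ p = (t : R) - u := by
  have h7 : (u ^ p) ^ 2 + (c : R) = (t : R) * u ^ p := by
    have hF : ∀ n : ℕ, (n : R) ^ p = n := fun n => by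
      rw [← map_natCast (ZMod.castHom (dvd_refl p) R), ← _root_.map_pow, ZMod.pow_card]
    have h8 := congrArg (frobenius R p) hres
    rwa [map_add, _root_.map_mul, _root_.map_pow, frobenius_def, frobenius_def, frobenius_def,
      hF, hF] at h8
  have h9 : (u ^ p - u) * (u ^ p + u - (t : R)) = 0 := by linear_combination h7 - hres
  rw [← sub_eq_zero]
  linear_combination (mul_eq_zero.mp h9).resolve_left (sub_ne_zero.mpr hu)

variable [CharP k p] [Finite k] (r : Γℚ →* Matrix (Fin 2) (Fin 2) k) (L : IntermediateField ℚ ℚbar)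
  [Normal ℚ L] [FiniteDimensional ℚ L] (hL : ∀ σ ∈ L.fixingSubgroup, r σ = 1)

/-- If Frobenius raises `r γ` to the `p`-th power and `r γ` is no prime field scalar, it is no
scalar. -/
lemma ne_smul_one_of_frob {g : Matrix (Fin 2) (Fin 2) k} {φ : Γℚ}
    (hfrob : r φ * g = g ^ p * r φ) (hnot : ∀ n : ℕ, g ≠ (n : k) • 1) (s : k) : g ≠ s • 1 := by
  intro hs
  have h3 : s = s ^ p := by
    have h4 := hfrob
    rw [hs, smul_pow, one_pow, Matrix.mul_smul, mul_one, Matrix.smul_mul, one_mul] at h4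
    have hφu : r φ * r φ⁻¹ = 1 := by rw [← map_mul, mul_inv_cancel, map_one]
    have h5 := congrArg (fun M => M * r φ⁻¹) h4
    simp only [Matrix.smul_mul, hφu] at h5
    simpa using congrFun (congrFun h5 0) 0
  obtain ⟨n, hn⟩ := CFT.exists_natCast_eq_of_pow_eq p h3.symm
  exact hnot n (by rw [hs, hn])

include hL in
/-- **The residual data exist.** A flat representation irreducible on decomposition, with cyclotomic
determinant on inertia, has residual data `SSData`. -/
theorem exists_ssData (h : IsPlace A p) (hp2 : p ≠ 2) (hirr : DecompIrred A r)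
    (hdet : ∀ σ ∈ A.inertiaSubgroupIn ℚ,
      (r σ).det = (((Fermat.CFT.cycChar p σ : (ZMod p)ˣ) : ZMod p).val : k))
    {H : Subgroup Γℚ} (G : Model A H (resAct r)) : Nonempty (SSData p A r) := by
  classical
  have : NeZero p := ⟨hp.out.ne_zero⟩
  have he0 : p ^ 2 - 1 ≠ 0 := sq_sub_one_ne_zero
  obtain ⟨π, hπ⟩ := exists_pi p (p ^ 2 - 1) he0
  have : NeZero ((p ^ 2 - 1 : ℕ) : ℚbar) := ⟨Nat.cast_ne_zero.mpr he0⟩
  have : NeZero (p ^ 2 - 1) := ⟨he0⟩
  obtain ⟨z, hz⟩ := HasEnoughRootsOfUnity.exists_primitiveRoot ℚbar (p ^ 2 - 1)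
  obtain ⟨ξ, hξ⟩ := Fermat.EC.Cyclo.exists_zeta hp.out
  obtain ⟨γ, hγ, hγπ⟩ := exists_move h not_dvd_sq_sub_one hπ hz.pow_eq_one
  obtain ⟨σ₀, hσ₀, hnoev, hgen⟩ := irreducible_inertia r L hL h hp2 hirr hdet
  have hline := fun {x : Fin 2 → k} (hx : x ≠ 0) =>
    exists_simpleSub r h hp2 hπ G hσ₀ hnoev hgen hx
  have htame : ∀ τ ∈ tame A π, r τ = 1 := fun τ hτ => by
    refine Matrix.ext_of_mulVec_single fun i => ?_
    rw [Matrix.one_mulVec]
    exact (hline (by simp)).1 τ hτ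
  obtain ⟨-, W, Lf, S⟩ := hline (x := Pi.single 0 1) (by simp)
  have := charP_res h
  set u := red A z with hu
  have hredm : ∀ m : ℕ, red A ((γ ^ m) π / π) = u ^ m := red_move_pow h hπ hz hγ hγπ
  have hred1 : red A (γ π / π) = u := by simpa using hredm 1
  have hup : u ^ p ≠ u := red_root_pow_ne h hz
  have hnot : ∀ n : ℕ, r γ ≠ (n : k) • 1 := fun n hn => hup (by
    rw [← hred1, S.red_eq_natCast hγ hn,
      ← map_natCast (ZMod.castHom (dvd_refl p) (ResidueField A)), ← _root_.map_pow, ZMod.pow_card])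
  obtain ⟨φ, hφ, hφπ⟩ := exists_frob_fixing h not_dvd_sq_sub_one hπ
  -- Frobenius conjugation raises `r γ` to the `p`-th power
  have hfrob : r φ * r γ = r γ ^ p * r φ := by
    have := wild_eq_one r L hL h hirr (frob_conj_mem_wildOn h hφ hγ)
    rw [← map_pow, ← map_mul, ← map_mul,
      show φ * γ = φ * γ * φ⁻¹ * (γ ^ p)⁻¹ * (γ ^ p * φ) by group, map_mul, this, one_mul]
  have hns := ne_smul_one_of_frob r hfrob hnot
  -- the quadratic equation
  obtain ⟨a₁, b₁, h₁⟩ := hgen γ hγ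
  obtain ⟨a₂, b₂, h₂⟩ := hgen (γ * γ) (mul_mem hγ hγ)
  rw [_root_.map_mul] at h₂
  have hb₁ : (b₁ : k) ≠ 0 := fun e0 => hnot a₁ (by rw [h₁, e0, zero_smul, add_zero])
  set ι : ZMod p →+* k := ZMod.castHom (dvd_refl p) k
  set tb : ZMod p := (b₂ : ZMod p) / b₁ with htb
  set χ := ((Fermat.CFT.cycChar p γ : (ZMod p)ˣ) : ZMod p).val
  have hquad : r γ * r γ = ι ((a₂ : ZMod p) - tb * a₁) • 1 + ι tb • r γ := by
    rw [htb, map_sub, _root_.map_mul, map_div₀, map_natCast, map_natCast, map_natCast,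
      map_natCast, h₂, h₁, smul_add, smul_smul, smul_smul, div_mul_cancel₀ _ hb₁]
    module
  obtain ⟨htr, hdt⟩ := coeff_eq_trace_det hns hquad
  have htrt : (r γ).trace = (tb.val : k) := by
    rw [← htr, ← map_natCast ι, ZMod.natCast_zmod_val]
  have hdetγ : (r γ).det = (χ : k) := hdet γ hγ
  rw [hdt, htr, hdetγ, htrt] at hquad
  have hres : u ^ 2 + (χ : ResidueField A) = (tb.val : ResidueField A) * u := by
    rw [← hred1]; exact S.red_sq hγ hquad
  -- on a basis, `r γ ^ p` is the conjugate root `t - r γ`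
  have hgp : r γ ^ p = (tb.val : k) • 1 - r γ := by
    refine Matrix.ext_of_mulVec_single fun i => ?_
    obtain ⟨-, W', Lf', S'⟩ := hline (x := Pi.single i 1) (by simp)
    rw [← _root_.map_pow]
    exact S'.mulVec_eq hγ (pow_mem hγ p) (by rw [hredm, hred1, root_pow_eq_sub hup hres])
  refine ⟨{
    π := π, z := z, ξ := ξ, γ := γ, φ := φ, t := tb.val, χ := χ
    χ' := ((Fermat.CFT.cycChar p φ : (ZMod p)ˣ) : ZMod p).val
    place := h, odd := hp2, pi_pow := hπ, prim_z := hz, root := hξ, γ_mem := hγ, γ_pi := hγπ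
    γ_root := Fermat.CFT.apply_eq_pow_cycChar γ hξ.pow_eq_one
    frob := hφ, φ_pi := hφπ
    φ_root := Fermat.CFT.apply_eq_pow_cycChar φ hξ.pow_eq_one
    tame_one := htame, not_scalar := hns, trace_eq := htrt, det_eq := hdetγ, res_eq := hres
    frob_rel := by rw [hfrob, hgp]
    inertia := fun σ hσ => ?_ }⟩
  obtain ⟨i, hmem⟩ := exists_pow_inv_mul_mem_tame h not_dvd_sq_sub_one hπ hz hγ hγπ hσ
  refine ⟨i, ?_, hmem⟩
  rw [show σ = γ ^ i * ((γ ^ i)⁻¹ * σ) by group, map_mul, htame _ hmem, mul_one, map_pow]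

end Fermat.FLAT
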