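import Fermat.Agent.FLAT.Model

/-!
# Models over the fixed ring of a smaller group

The main result is `Model.nonempty_restrictH`, extension of scalars to that ring.
-/

set_option autoImplicit false

noncomputable section

namespace Fermat.FLAT

local notation "ℚbar" => AlgebraicClosure ℚ
local notation "Γℚ" => (AlgebraicClosure ℚ ≃ₐ[ℚ] AlgebraicClosure ℚ)

variable {p : ℕ} [Fact p.Prime] {A : ValuationSubring ℚbar} {H : Subgroup Γℚ}
  {M : Type*} [AddCommGroup M] [Finite M] {g : Γℚ → AddMonoid.End M}

omit [Finite M] in
/-- Extension of scalars to the fixed ring of a smaller group: the functions are spanned by those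
of the model. -/
theorem Model.exists_restrictH (G : Model A H g) {I : Subgroup Γℚ}
    (hI : A.inertiaSubgroupIn ℚ ≤ I) (hIH : I ≤ H) : ∃ G' : Model A I g,
      ∀ f ∈ G'.O, f ∈ Submodule.span (Rfix A I) (G.O : Set (M → ℚbar)) := by
  classical
  obtain ⟨s, hs⟩ := G.fg
  -- the new functions are the span of the old generators over the larger ring
  set S : Submodule (Rfix A I) (M → ℚbar) := Submodule.span (Rfix A I) (s : Set (M → ℚbar))
    with hS
  have hO : ∀ f ∈ G.O, f ∈ S := by
    intro f hf
    replace hf : f ∈ Submodule.span (Rfix A H) (s : Set (M → ℚbar)) := hs ▸ hf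
    induction hf using Submodule.span_induction with
    | mem f hf => exact Submodule.subset_span hf
    | zero => exact zero_mem _
    | add u v _ _ hu hv => exact add_mem hu hv
    | smul r u _ hu =>
      have : r • u = (⟨(r : ℚbar), r.2.1, fun σ hσ => r.2.2 σ (hIH hσ)⟩ : Rfix A I) • u := rfl
      rw [this]
      exact Submodule.smul_mem _ _ hu
  have hmemO : ∀ f ∈ s, f ∈ G.O := fun f hf => by
    have : f ∈ Subalgebra.toSubmodule G.O := hs ▸ Submodule.subset_span hf
    exact this
  -- this span is an algebra
  have hmul : ∀ f ∈ S, ∀ f' ∈ S, f * f' ∈ S := by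
    intro f hf f' hf'
    induction hf using Submodule.span_induction with
    | mem f hfi =>
      induction hf' using Submodule.span_induction with
      | mem f' hfj => exact hO _ (mul_mem (hmemO f hfi) (hmemO f' hfj))
      | zero => rw [mul_zero]; exact zero_mem _
      | add u v _ _ hu hv => rw [mul_add]; exact add_mem hu hv
      | smul r u _ hu => rw [mul_smul_comm]; exact Submodule.smul_mem _ _ hu
    | zero => rw [zero_mul]; exact zero_mem _
    | add u v _ _ hu hv => rw [add_mul]; exact add_mem hu hv
    | smul r u _ hu => rw [smul_mul_assoc]; exact Submodule.smul_mem _ _ hu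
  refine ⟨⟨S.toSubalgebra (hO 1 (one_mem _)) fun f f' hf hf' => hmul f hf f' hf', ?_, hI, G.act_one,
    fun σ hσ τ hτ => G.act_mul σ (hIH hσ) τ (hIH hτ), ?_, ?_, ?_⟩, fun f hf => ?_⟩
  · rw [Submodule.toSubalgebra_toSubmodule]
    exact Submodule.fg_span s.finite_toSet
  -- equivariance under `I`, by linearity
  · intro f hf σ hσ x
    rw [Submodule.mem_toSubalgebra] at hf
    induction hf using Submodule.span_induction with
    | mem f hfi => exact G.equivariant f (hmemO f hfi) σ (hIH hσ) x
    | zero => simp
    | add u v _ _ hu hv => rw [Pi.add_apply, Pi.add_apply, map_add, hu, hv]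
    | smul r u _ hu =>
      rw [Pi.smul_apply, Pi.smul_apply, Algebra.smul_def, Algebra.smul_def, map_mul, hu,
        algebraMap_Rfix, apply_Rfix hσ]
  · exact fun x y hxy => G.separates x y fun f hf => hxy f (hO f hf)
  · intro f hf
    rw [Submodule.mem_toSubalgebra] at hf
    obtain ⟨r, rfl⟩ := (Submodule.mem_span_finset' (R := Rfix A I)).mp hf
    -- the comultiplication of a combination combines those of the generators
    choose n a b hab heq using fun i : s => G.comul i.1 (hmemO i.1 i.2)
    set ε := (Fintype.equivFin (Σ i : s, Fin (n i))).symm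
    refine ⟨_, fun t => r (ε t).1 • a _ (ε t).2, fun t => b _ (ε t).2,
      fun t => ⟨Submodule.smul_mem _ _ (hO _ (hab _ _).1), hO _ (hab _ _).2⟩, fun x y => ?_⟩
    rw [Equiv.sum_comp ε (fun q => (r q.1 • a _ q.2) x * b _ q.2 y), Fintype.sum_sigma,
      Finset.sum_apply]
    refine Finset.sum_congr rfl fun i _ => ?_
    rw [Pi.smul_apply, heq i x y, Finset.smul_sum]
    exact Finset.sum_congr rfl fun j _ => by rw [Pi.smul_apply, smul_mul_assoc]
  · exact Submodule.span_mono (fun u hu => hmemO u hu) hf

omit [Finite M] in
/-- Extension of scalars to the fixed ring of a smaller group. -/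
theorem Model.nonempty_restrictH (G : Model A H g) {I : Subgroup Γℚ}
    (hI : A.inertiaSubgroupIn ℚ ≤ I) (hIH : I ≤ H) : Nonempty (Model A I g) :=
  ⟨(G.exists_restrictH hI hIH).choose⟩

end Fermat.FLAT
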