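import Fermat.Agent.FLAT.SS.Claims
import Mathlib.LinearAlgebra.Dimension.Free

/-!
# Frobenius on leading residues, and cocycles trivial on the tame group

Frobenius acts semilinearly on the leading residues of the `Y`-coordinate at level `p² + 1`,
leading residues of differences subtract, and cocycles trivial on the tame group are coboundaries.
-/

set_option autoImplicit false
set_option linter.unusedSectionVars false

noncomputable section

open IsLocalRing Matrix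

namespace Fermat.FLAT

local notation "ℚbar" => AlgebraicClosure ℚ
local notation "Γℚ" => (AlgebraicClosure ℚ ≃ₐ[ℚ] AlgebraicClosure ℚ)

variable {p : ℕ} [hp : Fact p.Prime] {A : ValuationSubring ℚbar}
  {k : Type*} [Field k] [CharP k p]

/-- A coboundary of a trace zero matrix on the decomposition group of `A`. -/
def IsAdCoboundary (A : ValuationSubring ℚbar) (r : Γℚ →* Matrix (Fin 2) (Fin 2) k)
    (c : Γℚ → Matrix (Fin 2) (Fin 2) k) : Prop :=
  ∃ X : Matrix (Fin 2) (Fin 2) k, X.trace = 0 ∧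
    ∀ σ ∈ A.decompositionSubgroup ℚ, c σ = r σ * X * r σ⁻¹ - X

variable {r : Γℚ →* Matrix (Fin 2) (Fin 2) k}

/-- A compositum of normal extensions is normal. -/
lemma normal_sup_level (L₁ L₂ : IntermediateField ℚ ℚbar) (h₁ : Normal ℚ L₁) (h₂ : Normal ℚ L₂) :
    Normal ℚ ↥(L₁ ⊔ L₂) := by
  convert @IntermediateField.normal_sup ℚ ℚbar _ _ _ L₁ L₂
    (by convert h₁ using 0; congr! 1)
    (by convert h₂ using 0; congr! 1) using 1
  exact Subsingleton.elim _ _

/-- Conjugation preserves the trace. -/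
lemma trace_conj (σ : Γℚ) (X : Matrix (Fin 2) (Fin 2) k) :
    (r σ * X * r σ⁻¹).trace = X.trace := by
  rw [Matrix.trace_mul_comm, ← mul_assoc, ← map_mul, inv_mul_cancel, map_one, one_mul]

/-- Differences of cocycles are cocycles. -/
lemma IsAdCocycle.sub {c c' : Γℚ → Matrix (Fin 2) (Fin 2) k} (hc : IsAdCocycle A r c)
    (hc' : IsAdCocycle A r c') : IsAdCocycle A r (c - c') where
  trace_eq σ hσ := by
    rw [Pi.sub_apply, Matrix.trace_sub, hc.trace_eq σ hσ, hc'.trace_eq σ hσ, sub_zero]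
  map_mul σ hσ τ hτ := by
    simp only [Pi.sub_apply, hc.map_mul σ hσ τ hτ, hc'.map_mul σ hσ τ hτ, mul_sub, sub_mul]
    abel
  level := by
    obtain ⟨L₁, f₁, n₁, h₁⟩ := hc.level
    obtain ⟨L₂, f₂, n₂, h₂⟩ := hc'.level
    have := f₁; have := f₂
    refine ⟨L₁ ⊔ L₂, inferInstance, normal_sup_level _ _ n₁ n₂, fun τ hτ hτL => ?_⟩
    rw [Pi.sub_apply, h₁ τ hτ (IntermediateField.fixingSubgroup_antitone le_sup_left hτL),
      h₂ τ hτ (IntermediateField.fixingSubgroup_antitone le_sup_right hτL), sub_zero]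

namespace SSData

variable (D : SSData p A r)

/-- Conjugation by Frobenius preserves the tame group. -/
lemma conj_frob_mem_tame {τ : Γℚ} (hτ : τ ∈ tame A D.π) : D.φ⁻¹ * τ * D.φ ∈ tame A D.π := by
  refine mem_tame.mpr ⟨?_, ?_⟩
  · have := conj_mem_inertia D.place (inv_mem D.frob.mem_decompositionSubgroup) hτ.1
    rwa [inv_inv] at this
  · change D.φ.symm (τ (D.φ D.π)) = D.π
    rw [AlgEquiv.symm_apply_eq, D.φ_pi, (mem_tame.mp hτ).2]

/-- **Frobenius is semilinear on leading residues.** -/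
theorem lead_frob {c : Γℚ → Matrix (Fin 2) (Fin 2) k} (hc : IsAdCocycle A r c) {n : ℕ}
    {f : Matrix (Fin 2) (Fin 2) k →+ ZMod p} {l : ResidueField A}
    (hf : (D.tameMap hc).Lead (p ^ 2 - 1) n f l) :
    (D.tameMap hc).Lead (p ^ 2 - 1) n (D.χ' • f.comp (Ad r D.φ)) (l ^ p) := by
  have : NeZero p := ⟨hp.out.ne_zero⟩
  obtain ⟨y, hy, hyn, rfl⟩ := hf
  refine ⟨D.φ y, ⟨(_root_.map_ne_zero _).mpr hy.1, fun σ hσ => ?_⟩, ?_, ?_⟩
  · have e1 : σ (D.φ y) = D.φ ((D.φ⁻¹ * σ * D.φ) y) := by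
      rw [← AlgEquiv.mul_apply σ D.φ, ← AlgEquiv.mul_apply D.φ]
      congr 1
      group
    rw [e1, hy.2 _ (D.conj_frob_mem_tame hσ), _root_.map_mul, _root_.map_pow,
      show (D.tameMap hc).ξ = D.ξ from rfl, D.φ_root, ← pow_mul]
    congr 1
    refine pow_eq_pow_of_modEq ?_ D.root.pow_eq_one
    rw [← ZMod.natCast_eq_natCast_iff, show (D.tameMap hc).c = c from rfl,
      D.map_conj hc D.frob.mem_decompositionSubgroup hσ]
    simp
  · have := ge_apply_decomp D.place D.frob.mem_decompositionSubgroup hyn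
    rwa [map_sub, _root_.map_pow, _root_.map_one] at this
  · rw [← red_apply_frob D.place D.frob
      (TameMap.ge_div_pi_pow D.place D.pi_pow sq_sub_one_ne_zero hyn)]
    congr 1
    rw [map_div₀, map_sub, _root_.map_pow, _root_.map_pow, _root_.map_one, D.φ_pi]

/-- The leading residues of the `Y`-coordinate are eigen for Frobenius. -/
theorem lead_fA_pow {c : Γℚ → Matrix (Fin 2) (Fin 2) k} (hc : IsAdCocycle A r c) {β : k →+ ZMod p}
    {l : ResidueField A} (hl : (D.tameMap hc).Lead (p ^ 2 - 1) (p ^ 2 + 1) (D.fA β) l) :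
    l ^ p = (D.χ' : ResidueField A) * l := by
  have hp3 : 3 ≤ p := by have := hp.out.two_le; have := D.odd; omega
  have h4 : p * (p + 1) = p ^ 2 + p := by ring
  refine TameMap.Lead.unique D.place not_dvd_sq_sub_one D.pi_pow
    (fun hd => hp.out.not_dvd_one ((Nat.dvd_add_right (dvd_pow_self p two_ne_zero)).mp hd))
    (level_lt (by omega))
    ((D.lead_frob hc hl).congr (g := D.χ' • D.fA β) fun σ _ => ?_)
    (TameMap.Lead.nsmul D.place not_dvd_sq_sub_one D.pi_pow (by omega) hl D.χ')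
  simp [D.cA_frob]

/-- Two cocycles side by side. -/
def pairMap {c c' : Γℚ → Matrix (Fin 2) (Fin 2) k} (hc : IsAdCocycle A r c)
    (hc' : IsAdCocycle A r c') :
    TameMap p A D.π (Matrix (Fin 2) (Fin 2) k × Matrix (Fin 2) (Fin 2) k) where
  c σ := (c σ, c' σ)
  ξ := D.ξ
  root := D.root
  fix_root := (D.tameMap hc).fix_root
  map_mul σ hσ τ hτ := Prod.ext ((D.tameMap hc).map_mul σ hσ τ hτ)
    ((D.tameMap hc').map_mul σ hσ τ hτ)
  level := (D.tameMap hc).level ⊔ (D.tameMap hc').level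
  finite := by
    have := (D.tameMap hc).finite
    have := (D.tameMap hc').finite
    exact IntermediateField.finiteDimensional_sup _ _
  normal := normal_sup_level _ _ (D.tameMap hc).normal (D.tameMap hc').normal
  map_fix σ hσ hσL := Prod.ext
    ((D.tameMap hc).map_fix σ hσ (IntermediateField.fixingSubgroup_antitone le_sup_left hσL))
    ((D.tameMap hc').map_fix σ hσ (IntermediateField.fixingSubgroup_antitone le_sup_right hσL))

/-- Leading residues of a difference. -/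
theorem lead_sub {c c' : Γℚ → Matrix (Fin 2) (Fin 2) k} (hc : IsAdCocycle A r c)
    (hc' : IsAdCocycle A r c') {n : ℕ} (hn : 0 < n) {f : Matrix (Fin 2) (Fin 2) k →+ ZMod p}
    {l l' : ResidueField A} (h₁ : (D.tameMap hc).Lead (p ^ 2 - 1) n f l)
    (h₂ : (D.tameMap hc').Lead (p ^ 2 - 1) n f l') :
    (D.tameMap (hc.sub hc')).Lead (p ^ 2 - 1) n f (l - l') := by
  have := charP_res D.place
  set F := AddMonoidHom.fst (Matrix (Fin 2) (Fin 2) k) (Matrix (Fin 2) (Fin 2) k)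
  set S := AddMonoidHom.snd (Matrix (Fin 2) (Fin 2) k) (Matrix (Fin 2) (Fin 2) k)
  have g₁ : (D.pairMap hc hc').Lead (p ^ 2 - 1) n (f.comp F) l := h₁
  have g₂ : (D.pairMap hc hc').Lead (p ^ 2 - 1) n (f.comp S) l' := h₂
  have g₃ := TameMap.Lead.add D.place not_dvd_sq_sub_one D.pi_pow hn g₁
    (TameMap.Lead.nsmul D.place not_dvd_sq_sub_one D.pi_pow hn g₂ (p - 1))
  rw [Nat.cast_sub hp.out.one_le, CharP.cast_eq_zero (ResidueField A) p, Nat.cast_one, zero_sub,
    neg_one_mul, ← sub_eq_add_neg] at g₃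
  exact g₃.congr (g := f.comp (F - S)) fun σ _ => by
    simp [Nat.cast_sub hp.out.one_le, sub_eq_add_neg]

/-- The cocycle `c` minus the coboundary of `X`. -/
private def twist (r : Γℚ →* Matrix (Fin 2) (Fin 2) k) (c : Γℚ → Matrix (Fin 2) (Fin 2) k)
    (X : Matrix (Fin 2) (Fin 2) k) (σ : Γℚ) : Matrix (Fin 2) (Fin 2) k :=
  c σ - (r σ * X * r σ⁻¹ - X)

/-- Removing a coboundary keeps the cocycle identity. -/
private lemma twist_map_mul {c : Γℚ → Matrix (Fin 2) (Fin 2) k}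
    (hc : ∀ σ ∈ A.decompositionSubgroup ℚ, ∀ τ ∈ A.decompositionSubgroup ℚ,
      c (σ * τ) = c σ + r σ * c τ * r σ⁻¹)
    (X : Matrix (Fin 2) (Fin 2) k) : ∀ σ ∈ A.decompositionSubgroup ℚ,
      ∀ τ ∈ A.decompositionSubgroup ℚ,
        twist r c X (σ * τ) = twist r c X σ + r σ * twist r c X τ * r σ⁻¹ := by
  intro σ hσ τ hτ
  simp only [twist, hc σ hσ τ hτ, _root_.mul_inv_rev, map_mul, mul_sub, sub_mul, mul_assoc]
  abel

/-- `γ ^ (p² - 1)` is tame. -/
private lemma γ_pow_mem_tame : D.γ ^ (p ^ 2 - 1) ∈ tame A D.π := by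
  set e := p ^ 2 - 1
  refine mem_tame.mpr ⟨pow_mem D.γ_mem e, ?_⟩
  rw [move_pow D.place not_dvd_sq_sub_one D.prim_z.pow_eq_one D.γ_mem D.γ_pi,
    D.prim_z.pow_eq_one, one_mul]

/-- A coboundary makes a cocycle trivial on the tame group trivial on inertia. -/
private lemma exists_twist_inertia {c : Γℚ → Matrix (Fin 2) (Fin 2) k} (hc : IsAdCocycle A r c)
    (htame : ∀ τ ∈ tame A D.π, c τ = 0) :
    ∃ X₁ : Matrix (Fin 2) (Fin 2) k, X₁.trace = 0 ∧ twist r c X₁ D.γ = 0 ∧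
      ∀ σ ∈ A.inertiaSubgroupIn ℚ, twist r c X₁ σ = 0 := by
  set e := p ^ 2 - 1
  have hek : (e : k) ≠ 0 := fun h0 =>
    not_dvd_sq_sub_one ((CharP.cast_eq_zero_iff k p e).mp h0)
  have hγD : D.γ ∈ A.decompositionSubgroup ℚ := inertia_le_decomposition A D.γ_mem
  have hγe : D.γ ^ e ∈ tame A D.π := D.γ_pow_mem_tame
  -- average the values at the powers of `γ`
  set S := ∑ i ∈ Finset.range e, c (D.γ ^ i)
  have hS : (e : k) • c D.γ + r D.γ * S * r D.γ⁻¹ = S := by
    have h1 : ∑ i ∈ Finset.range e, c (D.γ ^ (i + 1)) = (e : k) • c D.γ + r D.γ * S * r D.γ⁻¹ := by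
      simp only [pow_succ', hc.map_mul _ hγD _ (pow_mem hγD _), Finset.sum_add_distrib,
        Finset.sum_const, Finset.card_range, Nat.cast_smul_eq_nsmul, S, Finset.mul_sum,
        Finset.sum_mul]
    have h2 := Finset.sum_range_succ (fun i => c (D.γ ^ i)) e
    rw [Finset.sum_range_succ', pow_zero, cocycle_one hc, add_zero, htame _ hγe, add_zero, h1] at h2
    exact h2
  set X₁ := -((e : k)⁻¹ • S) with hX₁
  have hX₁tr : X₁.trace = 0 := by
    rw [hX₁, Matrix.trace_neg, Matrix.trace_smul, Matrix.trace_sum,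
      Finset.sum_eq_zero (fun i _ => hc.trace_eq _ (pow_mem hγD i)), smul_zero, neg_zero]
  have h₁mul := twist_map_mul hc.map_mul X₁
  set c₁ := twist r c X₁
  have hc₁ : ∀ σ, c₁ σ = c σ - (r σ * X₁ * r σ⁻¹ - X₁) := fun _ => rfl
  have h₁γ : c₁ D.γ = 0 := by
    have h2 : c D.γ = (e : k)⁻¹ • (S - r D.γ * S * r D.γ⁻¹) := by
      rw [show S - r D.γ * S * r D.γ⁻¹ = (e : k) • c D.γ by rw [eq_comm, eq_sub_iff_add_eq, hS],
        smul_smul, inv_mul_cancel₀ hek, one_smul]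
    simp only [hc₁, hX₁, h2, mul_neg, neg_mul, Matrix.mul_smul, Matrix.smul_mul]
    module
  have h₁one : c₁ 1 = 0 := by simp [hc₁, cocycle_one hc]
  have h₁tame : ∀ τ ∈ tame A D.π, c₁ τ = 0 := fun τ hτ => by
    simp [hc₁, htame τ hτ, D.tame_one τ hτ, D.tame_one τ⁻¹ (inv_mem hτ)]
  -- inertia is generated by `γ` and the tame group
  have h₁I : ∀ σ ∈ A.inertiaSubgroupIn ℚ, c₁ σ = 0 := by
    intro σ hσ
    obtain ⟨i, -, hi⟩ := D.inertia σ hσ
    have h2 : c₁ (D.γ ^ i) = 0 := by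
      clear hi
      induction i with
      | zero => rw [pow_zero, h₁one]
      | succ i ih =>
        rw [pow_succ', h₁mul _ hγD _ (pow_mem hγD i), h₁γ, ih, mul_zero, zero_mul, add_zero]
    rw [show σ = D.γ ^ i * ((D.γ ^ i)⁻¹ * σ) by group,
      h₁mul _ (pow_mem hγD i) _ (D.tame_le_dec hi), h2, h₁tame _ hi, mul_zero, zero_mul, add_zero]
  exact ⟨X₁, hX₁tr, h₁γ, h₁I⟩

/-- Trivial on inertia and of trace zero, the value at Frobenius is a multiple of `h`. -/
private lemma exists_eq_smul_hm {c₁ : Γℚ → Matrix (Fin 2) (Fin 2) k}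
    (h₁mul : ∀ σ ∈ A.decompositionSubgroup ℚ, ∀ τ ∈ A.decompositionSubgroup ℚ,
      c₁ (σ * τ) = c₁ σ + r σ * c₁ τ * r σ⁻¹)
    (h₁I : ∀ σ ∈ A.inertiaSubgroupIn ℚ, c₁ σ = 0) (htr0 : (c₁ D.φ).trace = 0) :
    ∃ b : k, c₁ D.φ = b • D.hm := by
  have hI := inertia_le_decomposition A
  have hγD : D.γ ∈ A.decompositionSubgroup ℚ := hI D.γ_mem
  have hφD := D.frob.mem_decompositionSubgroup
  have h₁γ := h₁I _ D.γ_mem
  set γ' := D.φ * D.γ * D.φ⁻¹
  have hγ' : γ' ∈ A.inertiaSubgroupIn ℚ := conj_mem_inertia D.place hφD D.γ_mem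
  have h2 : c₁ (D.φ * D.γ) = c₁ D.φ := by
    rw [h₁mul _ hφD _ hγD, h₁γ, mul_zero, zero_mul, add_zero]
  rw [show D.φ * D.γ = γ' * D.φ by simp [γ'], h₁mul _ (hI hγ') _ hφD, h₁I _ hγ', zero_add] at h2
  have hrγ' : r γ' = (D.t : k) • 1 - D.g := by
    rw [show γ' = D.φ * D.γ * D.φ⁻¹ from rfl, map_mul, map_mul, ← g, ← Y, D.Y_g, mul_assoc, Y,
      r_mul_inv, mul_one]
  have h3 : r γ' * c₁ D.φ = c₁ D.φ * r γ' := by
    conv_rhs => rw [← h2, mul_assoc _ _ (r γ'), r_inv_mul, mul_one]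
  rw [hrγ', sub_mul, mul_sub, Matrix.smul_mul, Matrix.mul_smul, one_mul, mul_one,
    sub_right_inj] at h3
  obtain ⟨a, b, hab⟩ := DS.exists_eq_of_commute (fun ⟨s, hs⟩ => D.hm_not_scalar s hs)
    (h := c₁ D.φ) (by
    simp only [hm, sub_mul, mul_sub, Matrix.smul_mul, Matrix.mul_smul, one_mul, mul_one, h3])
  have htr := htr0
  rw [hab, Matrix.trace_add, Matrix.trace_smul, Matrix.trace_smul, Matrix.trace_one, D.trace_hm,
    Fintype.card_fin, smul_eq_mul, smul_eq_mul, mul_zero, add_zero, Nat.cast_two, mul_eq_zero,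
    or_iff_left D.two_ne] at htr
  exact ⟨b, by rw [hab, htr, zero_smul, zero_add]⟩

/-- Every element of decomposition is a Frobenius power, an inertia element and one of high
level. -/
private lemma exists_decomposition (L : IntermediateField ℚ ℚbar) [FiniteDimensional ℚ L]
    [Normal ℚ L] {c : Γℚ → Matrix (Fin 2) (Fin 2) k} (hc : IsAdCocycle A r c)
    (hL : ∀ σ ∈ L.fixingSubgroup, r σ = 1) {δ : Γℚ} (hδ : δ ∈ A.decompositionSubgroup ℚ) :
    ∃ (i : ℕ) (τ ν : Γℚ), τ ∈ A.inertiaSubgroupIn ℚ ∧ ν ∈ A.decompositionSubgroup ℚ ∧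
      δ = D.φ ^ i * τ * ν ∧ c ν = 0 ∧ r ν = 1 ∧ r ν⁻¹ = 1 := by
  classical
  have hI := inertia_le_decomposition A
  have hφD := D.frob.mem_decompositionSubgroup
  obtain ⟨L₁, hfin, hnorm, hL₁⟩ := hc.level
  have := hfin
  have := hnorm
  set L₀ := L₁ ⊔ L
  have : Normal ℚ L₀ := normal_sup_level L₁ L hnorm inferInstance
  obtain ⟨i, τ, hτ, heq⟩ := exists_frob_pow_mul (L := L₀) (ρ := AlgEquiv.restrictNormalHom L₀)
    D.place (fun s hs => (Fermat.CFT.restrict_eq_one_iff L₀ s).mpr hs) D.frob hδ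
  set ν := (D.φ ^ i * τ)⁻¹ * δ with hν
  have hνD : ν ∈ A.decompositionSubgroup ℚ := mul_mem (inv_mem (mul_mem (pow_mem hφD i) (hI hτ))) hδ
  have hνL : ν ∈ L₀.fixingSubgroup := by
    rw [← Fermat.CFT.restrict_eq_one_iff, hν, _root_.map_mul, _root_.map_inv, _root_.map_mul,
      _root_.map_pow, ← heq, inv_mul_cancel]
  exact ⟨i, τ, ν, hτ, hνD, by rw [hν, mul_inv_cancel_left],
    hL₁ ν hνD (IntermediateField.fixingSubgroup_antitone le_sup_left hνL),
    hL ν (IntermediateField.fixingSubgroup_antitone le_sup_right hνL),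
    hL ν⁻¹ (inv_mem (IntermediateField.fixingSubgroup_antitone le_sup_right hνL))⟩

/-- **Cocycles trivial on the tame group are coboundaries.** -/
theorem coboundary_of_tame (L : IntermediateField ℚ ℚbar) [FiniteDimensional ℚ L] [Normal ℚ L]
    (hL : ∀ σ ∈ L.fixingSubgroup, r σ = 1) {c : Γℚ → Matrix (Fin 2) (Fin 2) k}
    (hc : IsAdCocycle A r c)
    (htame : ∀ τ ∈ tame A D.π, c τ = 0) : IsAdCoboundary A r c := by
  classical
  have hI := inertia_le_decomposition A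
  have hφD := D.frob.mem_decompositionSubgroup
  obtain ⟨X₁, hX₁tr, -, h₁I⟩ := D.exists_twist_inertia hc htame
  have h₁mul := twist_map_mul hc.map_mul X₁
  set c₁ := twist r c X₁
  have h₁one : c₁ 1 = 0 := h₁I 1 (one_mem _)
  obtain ⟨b, hb⟩ := D.exists_eq_smul_hm h₁mul h₁I (by
    simp only [c₁, twist, Matrix.trace_sub, hc.trace_eq _ hφD, trace_conj, sub_self])
  set X₂ := -(b / 2) • D.hm with hX₂
  have h₂φ : r D.φ * X₂ * r D.φ⁻¹ - X₂ = b • D.hm := by
    rw [hX₂, Matrix.mul_smul, Matrix.smul_mul, ← Y, D.Y_hm, neg_mul, mul_assoc, Y, r_mul_inv,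
      mul_one, smul_neg, ← neg_smul, neg_neg, ← sub_smul, sub_neg_eq_add, ← two_mul,
      mul_div_cancel₀ _ D.two_ne]
  have h₂I : ∀ σ ∈ A.inertiaSubgroupIn ℚ, r σ * X₂ * r σ⁻¹ - X₂ = 0 := by
    intro σ hσ
    obtain ⟨i, hi, -⟩ := D.inertia σ hσ
    have hcomm : Commute (r σ) X₂ := by
      rw [hi, hX₂]
      exact ((Commute.symm D.hm_comm_g).pow_left i).smul_right _
    rw [hcomm.eq, mul_assoc, r_mul_inv, mul_one, sub_self]
  refine ⟨X₁ + X₂, by rw [Matrix.trace_add, hX₁tr, hX₂, Matrix.trace_smul, D.trace_hm, smul_zero,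
    add_zero], ?_⟩
  have h₂mul := twist_map_mul h₁mul X₂
  set c₂ := twist r c₁ X₂
  have hc₂ : ∀ σ, c₂ σ = c₁ σ - (r σ * X₂ * r σ⁻¹ - X₂) := fun _ => rfl
  suffices h0 : ∀ δ ∈ A.decompositionSubgroup ℚ, c₂ δ = 0 by
    intro σ hσ
    have := h0 σ hσ
    simp only [c₂, c₁, twist, sub_eq_zero] at this
    rw [sub_eq_iff_eq_add] at this
    rw [this, mul_add, add_mul]
    abel
  intro δ hδ
  obtain ⟨i, τ, ν, hτ, hνD, hδν, hcν, hrν, hrν'⟩ := D.exists_decomposition L hc hL hδ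
  have hp1 : ∀ j : ℕ, c₂ (D.φ ^ j) = 0 := by
    intro j
    induction j with
    | zero => simp [hc₂, h₁one]
    | succ j ih =>
      rw [pow_succ', h₂mul _ hφD _ (pow_mem hφD j), ih, mul_zero, zero_mul, add_zero]
      simp only [hc₂, hb, h₂φ, sub_self]
  have hτ0 : c₂ τ = 0 := by simp only [hc₂, h₁I τ hτ, h₂I τ hτ, sub_self]
  -- `ν` acts trivially residually on conjugation
  have hδeq : c₂ δ = r (D.φ ^ i * τ) * c₂ ν * r (D.φ ^ i * τ)⁻¹ := by
    have hmul := h₂mul _ (mul_mem (pow_mem hφD i) (hI hτ)) ν hνD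
    rw [← hδν,
      h₂mul _ (pow_mem hφD i) _ (hI hτ), hp1, hτ0, mul_zero, zero_mul, add_zero, zero_add] at hmul
    exact hmul
  rw [hδeq]
  suffices hν0 : c₂ ν = 0 by rw [hν0, mul_zero, zero_mul]
  -- `c` vanishes at `ν`, and so do the coboundaries
  simp [c₂, c₁, twist, hcν, hrν, hrν']

end SSData

end Fermat.FLAT
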