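import Fermat.Agent.FLAT.SS.Cocycle
import Fermat.Agent.FLAT.SS.Restrict
import Fermat.Agent.FLAT.Simple

/-!
# The flatness bound on tame classes

If `σ` in the tame group moves a point through a simple quotient then some integral element fixed by
the kernel of the two functionals is moved by no more than `1/(p²-1)`; two or one Kummer steps of
forbidden levels contradict this.
-/

set_option autoImplicit false
set_option linter.unusedSectionVars false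

noncomputable section

open Fermat.EC.Val IsLocalRing Matrix

namespace Fermat.FLAT

local notation "ℚbar" => AlgebraicClosure ℚ
local notation "Γℚ" => (AlgebraicClosure ℚ ≃ₐ[ℚ] AlgebraicClosure ℚ)

variable {p : ℕ} [hp : Fact p.Prime] {A : ValuationSubring ℚbar}

namespace TameMap

variable {π : ℚbar} {X : Type*} [AddCommGroup X] {C : TameMap p A π X} {e : ℕ}

/-- A generator is fixed where its functional vanishes. -/
lemma Kum.apply_eq_of_zero {f : X →+ ZMod p} {y : ℚbar} (hy : C.Kum f y) {σ : Γℚ}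
    (hσ : σ ∈ tame A π) (h0 : f (C.c σ) = 0) : σ y = y := by
  have : NeZero p := ⟨hp.out.ne_zero⟩
  rw [hy.2 σ hσ, h0, ZMod.val_zero, pow_zero, one_mul]

/-- A functional vanishes where its generator is fixed. -/
lemma Kum.zero_of_apply_eq {f : X →+ ZMod p} {y : ℚbar} (hy : C.Kum f y) {σ : Γℚ}
    (hσ : σ ∈ tame A π) (h0 : σ y = y) : f (C.c σ) = 0 := by
  have : NeZero p := ⟨hp.out.ne_zero⟩
  have h1 : C.ξ ^ (f (C.c σ)).val = 1 :=
    mul_right_cancel₀ hy.1 ((hy.2 σ hσ).symm.trans (by rw [h0, one_mul]))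
  exact (ZMod.val_eq_zero _).mp
    (Nat.eq_zero_of_dvd_of_lt ((C.root.pow_eq_one_iff_dvd _).mp h1) (ZMod.val_lt _))

/-- A power of an element seen by `f` has value `1`. -/
lemma apply_pow_inv_eq_one {f : X →+ ZMod p} {σ₀ : Γℚ} (hσ₀ : σ₀ ∈ tame A π)
    (hne : f (C.c σ₀) ≠ 0) :
    f (C.c (σ₀ ^ ((f (C.c σ₀))⁻¹).val)) = 1 := by
  have : NeZero p := ⟨hp.out.ne_zero⟩
  rw [map_pow' hσ₀, map_nsmul, nsmul_eq_mul, ZMod.natCast_zmod_val, inv_mul_cancel₀ hne]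

/-- An element of value `1` gives a Kummer step. -/
lemma Kum.step {f : X →+ ZMod p} {y : ℚbar} (hy : C.Kum f y) {σ : Γℚ} (hσ : σ ∈ tame A π)
    (h1 : f (C.c σ) = 1) : Step p (tame A π) y C.ξ σ :=
  ⟨C.root, C.fix_root, hσ, by
    have : Fact (1 < p) := ⟨hp.out.one_lt⟩
    rw [hy.2 σ hσ, h1, ZMod.val_one, pow_one], fun τ hτ => ⟨_, hy.2 τ hτ⟩⟩

/-- A step of the second generator over the stabiliser of the first. -/
lemma Kum.step_stab {f g : X →+ ZMod p} {y w : ℚbar} (hy : C.Kum f y) (hw : C.Kum g w) {σ : Γℚ}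
    (hσ : σ ∈ tame A π) (h0 : f (C.c σ) = 0) (h1 : g (C.c σ) = 1) :
    Step p (tameStab A π y) w C.ξ σ :=
  ⟨C.root, fun τ hτ => C.fix_root τ (mem_tameStab.mp hτ).1,
    mem_tameStab.mpr ⟨hσ, hy.apply_eq_of_zero hσ h0⟩, (hw.step hσ h1).apply_eq,
    fun τ hτ => ⟨_, hw.2 τ (mem_tameStab.mp hτ).1⟩⟩

/-- Either `g` is a multiple of `f`, or some element sees `g` and not `f`. -/
lemma multiple_or_exists (f g : X →+ ZMod p) :
    (∃ n : ℕ, ∀ σ ∈ tame A π, g (C.c σ) = (n • f) (C.c σ)) ∨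
      ∃ σ ∈ tame A π, f (C.c σ) = 0 ∧ g (C.c σ) = 1 := by
  have : NeZero p := ⟨hp.out.ne_zero⟩
  by_cases hne : ∃ σ ∈ tame A π, f (C.c σ) = 0 ∧ g (C.c σ) ≠ 0
  · obtain ⟨σ, hσ, h0, h1⟩ := hne
    refine Or.inr ⟨_, pow_mem hσ _, ?_, apply_pow_inv_eq_one hσ h1⟩
    rw [map_pow' hσ, map_nsmul, h0, smul_zero]
  push Not at hne
  refine Or.inl ?_
  by_cases hf : ∀ σ ∈ tame A π, f (C.c σ) = 0
  · exact ⟨0, fun σ hσ => by rw [hne σ hσ (hf σ hσ), zero_smul]; rfl⟩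
  push Not at hf
  obtain ⟨σ₀, hσ₀, hne₀⟩ := hf
  set σ₁ := σ₀ ^ ((f (C.c σ₀))⁻¹).val
  have hσ₁ : σ₁ ∈ tame A π := pow_mem hσ₀ _
  have h₁ : f (C.c σ₁) = 1 := apply_pow_inv_eq_one hσ₀ hne₀
  refine ⟨(g (C.c σ₁)).val, fun τ hτ => ?_⟩
  set m := (f (C.c τ)).val
  have hm : τ * (σ₁ ^ m)⁻¹ ∈ tame A π := mul_mem hτ (inv_mem (pow_mem hσ₁ m))
  have h2 := hne _ hm (by
    rw [C.map_mul _ hτ _ (inv_mem (pow_mem hσ₁ m)), map_inv' (pow_mem hσ₁ m), map_pow' hσ₁, map_add,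
      map_neg, map_nsmul, h₁, nsmul_one, ZMod.natCast_zmod_val, add_neg_cancel])
  rw [C.map_mul _ hτ _ (inv_mem (pow_mem hσ₁ m)), map_inv' (pow_mem hσ₁ m), map_pow' hσ₁, map_add,
    map_neg, map_nsmul, ← sub_eq_add_neg, sub_eq_zero, nsmul_eq_mul, ZMod.natCast_zmod_val] at h2
  rw [h2, AddMonoidHom.smul_apply, nsmul_eq_mul, ZMod.natCast_zmod_val, mul_comm]

/-- A generator of nonzero leading residue has exact level. -/
lemma Lead.exists_is (h : IsPlace A p) (he : e ≠ 0) (hπ : π ^ e = (p : ℚbar)) {n : ℕ}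
    {f : X →+ ZMod p} {l : ResidueField A} (hf : C.Lead e n f l) (hl : l ≠ 0) :
    ∃ y, C.Kum f y ∧ Is A p (y ^ p - 1) ((n : ℚ) / e) ∧ red A ((y ^ p - 1) / π ^ n) = l := by
  obtain ⟨y, hy, hyn, rfl⟩ := hf
  refine ⟨y, hy, hyn.is_of_not_gt fun hg => hl ?_, rfl⟩
  rw [red_eq_zero_iff h (ge_div_pi_pow h hπ he hyn)]
  have := Gt.div h hg ((is_pi h he hπ).pow h n)
  rwa [mul_one_div, sub_self] at this

end TameMap

variable {k : Type*} [Field k] [CharP k p] [Finite k] {r : Γℚ →* Matrix (Fin 2) (Fin 2) k}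

namespace SSData

variable (D : SSData p A r) {c : Γℚ → Matrix (Fin 2) (Fin 2) k} (hc : IsAdCocycle A r c)

/-- `p² - 1` as a rational number. -/
lemma cast_e : ((p ^ 2 - 1 : ℕ) : ℚ) = (p : ℚ) ^ 2 - 1 := by
  rw [Nat.cast_sub (Nat.one_le_pow _ _ hp.out.pos)]; push_cast; ring

/-- The two functionals `α` and `α ∘ h`. -/
private def hmPair (α : (Fin 2 → k) →+ ZMod p) : (Fin 2 → k) →+ ZMod p × ZMod p :=
  AddMonoidHom.mk' (fun w => (α w, α (D.hm *ᵥ w))) fun w w' => by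
    rw [Matrix.mulVec_add, map_add, map_add, Prod.mk_add_mk]

/-- The pair at `h w`. -/
private lemma hmPair_hm (α : (Fin 2 → k) →+ ZMod p) (w : Fin 2 → k) :
    D.hmPair α (D.hm *ᵥ w) = (α (D.hm *ᵥ w), D.Δp * α w) := by
  have : NeZero p := ⟨hp.out.ne_zero⟩
  change (α (D.hm *ᵥ w), α (D.hm *ᵥ (D.hm *ᵥ w))) = _
  rw [Matrix.mulVec_mulVec, D.hm_sq, Matrix.smul_mulVec, Matrix.one_mulVec, D.Δ_eq,
    ← ZMod.natCast_zmod_val D.Δp, map_natCast, Nat.cast_smul_eq_nsmul, map_nsmul, nsmul_eq_mul]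

/-- `α` and `α ∘ h` are independent, the discriminant being a non-square. -/
private lemma surjective_hmPair {α : (Fin 2 → k) →+ ZMod p} (hα : α ≠ 0) :
    Function.Surjective (D.hmPair α) := by
  have : NeZero p := ⟨hp.out.ne_zero⟩
  have hΦh := D.hmPair_hm α
  set Φ := D.hmPair α
  obtain ⟨w₀, hw₀⟩ : ∃ w₀, α w₀ ≠ 0 := by
    by_contra h0
    push Not at h0
    exact hα (AddMonoidHom.ext h0)
  obtain ⟨w, hw⟩ : ∃ w, α w = 1 := ⟨(α w₀)⁻¹.val • w₀, by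
    rw [map_nsmul, nsmul_eq_mul, ZMod.natCast_zmod_val, inv_mul_cancel₀ hw₀]⟩
  set s := α (D.hm *ᵥ w)
  have hd : D.Δp - s ^ 2 ≠ 0 := fun e0 => D.Δp_not_square s (sub_eq_zero.mp e0).symm
  rintro ⟨a, b⟩
  refine ⟨((a * D.Δp - b * s) / (D.Δp - s ^ 2)).val • w
    + ((b - a * s) / (D.Δp - s ^ 2)).val • (D.hm *ᵥ w), ?_⟩
  rw [map_add, map_nsmul, map_nsmul, hΦh, show Φ w = (α w, α (D.hm *ᵥ w)) from rfl, hw]
  rw [Prod.smul_mk, Prod.smul_mk, Prod.mk_add_mk]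
  simp only [nsmul_eq_mul, ZMod.natCast_zmod_val, Prod.mk.injEq, mul_one]
  constructor <;> field_simp <;> ring

/-- `2 g = h + t` under a functional. -/
private lemma two_mul_apply_g (α : (Fin 2 → k) →+ ZMod p) (w : Fin 2 → k) :
    2 * α (D.g *ᵥ w) = α (D.hm *ᵥ w) + (D.t : ZMod p) * α w := by
  have e1 : (2 : ℕ) • (D.g *ᵥ w) = D.hm *ᵥ w + D.t • w := by
    rw [hm, Matrix.sub_mulVec, Matrix.smul_mulVec, Matrix.smul_mulVec, Matrix.one_mulVec,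
      ← Nat.cast_smul_eq_nsmul k, ← Nat.cast_smul_eq_nsmul k D.t, sub_add_cancel, Nat.cast_two]
  have := congrArg α e1
  rw [map_nsmul, map_add, map_nsmul, nsmul_eq_mul, nsmul_eq_mul] at this
  exact_mod_cast this

/-- The kernel of the pair is stable under inertia. -/
private lemma hmPair_inertia_eq_zero {α : (Fin 2 → k) →+ ZMod p} {τ : Γℚ}
    (hτ : τ ∈ A.inertiaSubgroupIn ℚ) {w : Fin 2 → k} (hw : D.hmPair α w = 0) :
    D.hmPair α (r τ *ᵥ w) = 0 := by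
  have hΦh := D.hmPair_hm α
  have h2g := D.two_mul_apply_g α
  have h2 : (2 : ZMod p) ≠ 0 := two_ne_zero_of_charP (p := p) D.odd
  set Φ := D.hmPair α
  have hkerg : ∀ w, Φ w = 0 → Φ (D.g *ᵥ w) = 0 := by
    intro w hw
    have hw1 : α w = 0 := congrArg Prod.fst hw
    have hw2 : α (D.hm *ᵥ w) = 0 := congrArg Prod.snd hw
    refine Prod.ext ?_ ?_
    · refine (mul_eq_zero.mp (?_ : (2 : ZMod p) * _ = 0)).resolve_left h2
      change 2 * α (D.g *ᵥ w) = 0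
      rw [h2g, hw1, hw2, mul_zero, add_zero]
    · refine (mul_eq_zero.mp (?_ : (2 : ZMod p) * _ = 0)).resolve_left h2
      change 2 * α (D.hm *ᵥ (D.g *ᵥ w)) = 0
      rw [Matrix.mulVec_mulVec, D.hm_comm_g, ← Matrix.mulVec_mulVec, h2g, hw2,
        show α (D.hm *ᵥ (D.hm *ᵥ w)) = D.Δp * α w from congrArg Prod.snd (hΦh w), hw1, mul_zero,
        mul_zero, add_zero]
  obtain ⟨i, hi, -⟩ := D.inertia τ hτ
  rw [hi, ← g]
  clear hi
  induction i with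
  | zero => rwa [pow_zero, Matrix.one_mulVec]
  | succ i ih => rw [pow_succ', ← Matrix.mulVec_mulVec]; exact hkerg _ ih

/-- `g` has no rational eigenvector for the pair. -/
private lemma hmPair_eq_zero_of_eigen {α : (Fin 2 → k) →+ ZMod p} {u : Fin 2 → k} {m : ℕ}
    (h3 : D.hmPair α (D.g *ᵥ u) = m • D.hmPair α u) : D.hmPair α u = 0 := by
  have hΦh := D.hmPair_hm α
  have h2g := D.two_mul_apply_g α
  set Φ := D.hmPair α
  have h4 : α (D.g *ᵥ u) = (m : ZMod p) * α u := by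
    simpa [Φ, hmPair] using congrArg Prod.fst h3
  have h5 : α (D.hm *ᵥ (D.g *ᵥ u)) = (m : ZMod p) * α (D.hm *ᵥ u) := by
    simpa [Φ, hmPair] using congrArg Prod.snd h3
  have h6 := h2g (D.hm *ᵥ u)
  rw [show α (D.hm *ᵥ (D.hm *ᵥ u)) = D.Δp * α u from congrArg Prod.snd (hΦh u),
    Matrix.mulVec_mulVec, ← D.hm_comm_g, ← Matrix.mulVec_mulVec, h5] at h6
  have h7 := h2g u
  rw [h4] at h7
  have h8 : ((2 * (m : ZMod p) - D.t) ^ 2 - D.Δp) * α u = 0 := by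
    linear_combination (2 * (m : ZMod p) - D.t) * h7 + h6
  have h9 : α u = 0 := (mul_eq_zero.mp h8).resolve_left
    (sub_ne_zero.mpr (D.Δp_not_square _))
  have h10 : α (D.hm *ᵥ u) = 0 := by rw [h9] at h7; linear_combination -h7
  rw [show Φ u = (α u, α (D.hm *ᵥ u)) from rfl, h9, h10]
  rfl

/-- **A moved integral element.** For some integral `x` fixed by the kernel of the two functionals
`σ x - x` has order at most `1 / (p² - 1)`. -/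
theorem exists_moving (G : Model A (A.decompositionSubgroup ℚ) (dualAct r c)) (v : Fin 2 → k)
    {α : (Fin 2 → k) →+ ZMod p} (hα : α ≠ 0) {σ : Γℚ} (hσ : σ ∈ tame A D.π)
    (hne : α (c σ *ᵥ v) ≠ 0 ∨ α (D.hm *ᵥ (c σ *ᵥ v)) ≠ 0) :
    ∃ x : ℚbar, Ge A p x 0 ∧
      (∀ τ ∈ tame A D.π, α (c τ *ᵥ v) = 0 → α (D.hm *ᵥ (c τ *ᵥ v)) = 0 → τ x = x) ∧
      ¬ Gt A p (σ x - x) (1 / ((p ^ 2 - 1 : ℕ) : ℚ)) := by
  classical
  have : NeZero p := ⟨hp.out.ne_zero⟩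
  let Φ : (Fin 2 → k) →+ ZMod p × ZMod p := D.hmPair α
  have hsurj : Function.Surjective Φ := D.surjective_hmPair hα
  have hker : ∀ τ ∈ A.inertiaSubgroupIn ℚ, ∀ w, Φ w = 0 → Φ (r τ *ᵥ w) = 0 :=
    fun τ hτ w => D.hmPair_inertia_eq_zero hτ
  -- the quotient model
  let q : (Fin 2 → k) × (Fin 2 → k) →+ (ZMod p × ZMod p) × (Fin 2 → k) :=
    Φ.prodMap (AddMonoidHom.id _)
  have hq : Function.Surjective q := fun ⟨a, w⟩ => by
    obtain ⟨u, hu⟩ := hsurj a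
    exact ⟨(u, w), by simp [q, hu]⟩
  have hqker : ∀ τ ∈ A.inertiaSubgroupIn ℚ, q.ker ≤ (q.comp (dualAct r c τ)).ker := by
    rintro τ hτ ⟨a, w⟩ hx
    rw [AddMonoidHom.mem_ker] at hx ⊢
    obtain ⟨ha, rfl⟩ : Φ a = 0 ∧ w = 0 := Prod.mk.inj hx
    change q (dualAct r c τ (a, 0)) = 0
    rw [dualAct_apply, Matrix.mulVec_zero, Matrix.mulVec_zero, add_zero]
    exact Prod.ext (hker τ hτ a ha) rfl
  let g' : Γℚ → AddMonoid.End ((ZMod p × ZMod p) × (Fin 2 → k)) := fun τ =>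
    if hτ : τ ∈ A.inertiaSubgroupIn ℚ
      then q.liftOfSurjective hq ⟨q.comp (dualAct r c τ), hqker τ hτ⟩
    else 1
  have hg' : ∀ τ ∈ A.inertiaSubgroupIn ℚ, ∀ x, q (dualAct r c τ x) = g' τ (q x) := by
    intro τ hτ x
    rw [show g' τ = q.liftOfSurjective hq ⟨q.comp (dualAct r c τ), hqker τ hτ⟩ from dif_pos hτ]
    exact (AddMonoidHom.liftOfRightInverse_comp_apply q (Function.surjInv hq)
      (Function.rightInverse_surjInv hq) ⟨q.comp (dualAct r c τ), hqker τ hτ⟩ x).symm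
  obtain ⟨G₁⟩ := G.nonempty_restrictH le_rfl (inertia_le_decomposition A)
  let G' := G₁.quot D.place q hq (g' := g') hg'
  have hM : ∀ x : (ZMod p × ZMod p) × (Fin 2 → k), p • x = 0 := fun x => by
    refine Prod.ext (Prod.ext ?_ ?_) ?_
    · simp
    · simp
    · change p • x.2 = 0
      rw [← Nat.cast_smul_eq_nsmul k, CharP.cast_eq_zero k p, zero_smul]
  set ι₁ := AddMonoidHom.inl (ZMod p × ZMod p) (Fin 2 → k)
  set W := ι₁.range with hW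
  have hι : Function.Injective ι₁ := fun a b hab => congrArg Prod.fst hab
  have hcard : Nat.card W = p ^ 2 := by
    rw [hW, ← Nat.card_congr (AddMonoidHom.ofInjective hι).toEquiv, Nat.card_prod, Nat.card_zmod,
      sq]
  have hWst : ∀ τ ∈ A.inertiaSubgroupIn ℚ, ∀ x ∈ W, g' τ x ∈ W := by
    rintro τ hτ _ ⟨a, rfl⟩
    obtain ⟨u, rfl⟩ := hsurj a
    rw [show ι₁ (Φ u) = q (u, 0) from rfl, ← hg' τ hτ]
    refine ⟨Φ (r τ *ᵥ u), ?_⟩
    simp [q, ι₁]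
  have hirr : InertiaIrred A g' W := by
    rintro _ ⟨a, rfl⟩ hx
    obtain ⟨u, rfl⟩ := hsurj a
    refine ⟨D.γ, D.γ_mem, fun m hm' => hx ?_⟩
    rw [show ι₁ (Φ u) = q (u, 0) from rfl, ← hg' _ D.γ_mem] at hm'
    have h3 : Φ (D.g *ᵥ u) = m • Φ u := by
      simpa [q, g] using congrArg Prod.fst hm'
    exact congrArg ι₁ (D.hmPair_eq_zero_of_eigen h3) |>.trans (map_zero ι₁)
  obtain ⟨-, hstrict, -, -⟩ := G'.simple_structure hM hWst hcard hirr D.place D.odd D.pi_pow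
  -- the image of `(0, v)` is moved by `Φ (c σ v) ≠ 0`, inside the simple part
  set x₀ := q (0, v) with hx₀
  have hact : ∀ τ ∈ tame A D.π, g' τ x₀ = x₀ + ι₁ (Φ (c τ *ᵥ v)) := fun τ hτ => by
    rw [hx₀, ← hg' τ hτ.1]
    simp [q, ι₁, D.tame_one τ hτ]
  have hy : g' σ x₀ - x₀ ≠ 0 := by
    rw [hact σ hσ, add_sub_cancel_left]
    refine fun e0 => ?_
    have h3 : Φ (c σ *ᵥ v) = 0 := hι (e0.trans (map_zero ι₁).symm)
    rcases hne with h4 | h4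
    · exact h4 (congrArg Prod.fst h3)
    · exact h4 (congrArg Prod.snd h3)
  -- by strictness some coordinate of that point is moved enough
  obtain ⟨a, ha, hmove⟩ : ∃ a ∈ G'.O,
      ¬ Gt A p (σ (a x₀) - a x₀) (1 / ((p ^ 2 - 1 : ℕ) : ℚ)) := by
    by_contra hc'
    push Not at hc'
    refine hy (hstrict _ ?_ (G'.sdom_smul_sub D.place hσ.1 hc'))
    rw [hact σ hσ, add_sub_cancel_left]
    exact ⟨_, rfl⟩
  refine ⟨a x₀, G'.ge_zero D.place ha x₀, fun τ hτ h3 h4 => ?_, hmove⟩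
  rw [← G'.equivariant a ha τ hτ.1, hact τ hτ,
    show Φ (c τ *ᵥ v) = 0 from Prod.ext h3 h4, map_zero, add_zero]

include hc

/-- **No pair of independent steps.** The two functionals cannot be independent Kummer steps of
these small levels. -/
theorem no_two_steps (G : Model A (A.decompositionSubgroup ℚ) (dualAct r c)) (v : Fin 2 → k)
    {α : (Fin 2 → k) →+ ZMod p} (hα : α ≠ 0) {f₁ f₂ : Matrix (Fin 2) (Fin 2) k →+ ZMod p}
    (hf₁ : ∀ τ ∈ tame A D.π, α (c τ *ᵥ v) = f₁ (c τ))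
    (hf₂ : ∀ τ ∈ tame A D.π, α (D.hm *ᵥ (c τ *ᵥ v)) = f₂ (c τ))
    {y₁ y₂ : ℚbar} (hy₁ : (D.tameMap hc).Kum f₁ y₁) (hy₂ : (D.tameMap hc).Kum f₂ y₂)
    {σ₁ σ₂ : Γℚ} (hσ₁ : σ₁ ∈ tame A D.π) (h1 : f₁ (c σ₁) = 1)
    (hσ₂ : σ₂ ∈ tame A D.π) (h20 : f₁ (c σ₂) = 0) (h21 : f₂ (c σ₂) = 1)
    {j₁ j₂ b : ℕ} (hj : j₂ + p * b = j₁) (hj₂ : 0 < j₂) (hj₁ : ¬ p ∣ j₁)
    (hlt : j₁ < p * (p + 1))
    (hu₁ : Is A p (y₁ ^ p - 1) ((j₁ : ℚ) / ((p ^ 2 - 1 : ℕ) : ℚ)))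
    (hu₂ : Is A p (y₂ ^ p - 1) ((j₂ : ℚ) / ((p ^ 2 - 1 : ℕ) : ℚ)))
    (hind : b = 0 → ∀ n : ℕ, ¬ Gt A p (y₂ ^ p - 1 - n * (y₁ ^ p - 1))
      ((j₂ : ℚ) / ((p ^ 2 - 1 : ℕ) : ℚ)))
    (hN : (p : ℚ) * ((p : ℚ) ^ 2 - 1 + j₂ - j₁) + j₁ < (p : ℚ) ^ 3) : False := by
  have : NeZero p := ⟨hp.out.ne_zero⟩
  obtain ⟨x, hx0, hxfix, hx⟩ := D.exists_moving G v hα hσ₂
    (Or.inr (by rw [hf₂ σ₂ hσ₂, h21]; exact one_ne_zero))
  refine hx (gt_sub_two D.place not_dvd_sq_sub_one D.pi_pow (hy₁.step hσ₁ h1)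
    (hy₁.step_stab hy₂ hσ₂ h20 h21) hy₂.pow_fixed hj hj₂ hj₁ (level_lt hlt) hu₁ hu₂ hind ?_ hx0
    fun τ hτ e1 e2 => hxfix τ hτ ((hf₁ τ hτ).trans (hy₁.zero_of_apply_eq hτ e1))
      ((hf₂ τ hτ).trans (hy₂.zero_of_apply_eq hτ e2)))
  have hp3 : (3 : ℚ) ≤ p := by
    exact_mod_cast (show 3 ≤ p by have := hp.out.two_le; have := D.odd; omega)
  have he : (0 : ℚ) < (p : ℚ) ^ 2 - 1 := by nlinarith
  rw [cast_e]
  have e1 : 1 / ((p : ℚ) ^ 2 - 1) + (1 + ((j₂ : ℚ) - j₁) / ((p : ℚ) ^ 2 - 1)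
      + (j₁ : ℚ) / (p * ((p : ℚ) ^ 2 - 1))) / p
      = ((p : ℚ) ^ 2 + (p * ((p : ℚ) ^ 2 - 1 + j₂ - j₁) + j₁)) / (p ^ 2 * ((p : ℚ) ^ 2 - 1)) := by
    field_simp; ring
  have e2 : 1 / ((p : ℚ) - 1) = ((p : ℚ) ^ 2 * (p + 1)) / (p ^ 2 * ((p : ℚ) ^ 2 - 1)) := by
    rw [show (p : ℚ) ^ 2 - 1 = (p - 1) * (p + 1) by ring]
    have : (p : ℚ) - 1 ≠ 0 := by linarith
    have : (p : ℚ) + 1 ≠ 0 := by linarith
    field_simp
  rw [e1, e2, div_lt_div_iff_of_pos_right (by positivity)]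
  linarith

/-- **No single step of small level.** The second functional cannot be a Kummer step of level below
`p²` prime to `p` when the first vanishes. -/
theorem no_one_step (G : Model A (A.decompositionSubgroup ℚ) (dualAct r c)) (v : Fin 2 → k)
    {α : (Fin 2 → k) →+ ZMod p} (hα : α ≠ 0) {f : Matrix (Fin 2) (Fin 2) k →+ ZMod p}
    (hf₁ : ∀ τ ∈ tame A D.π, α (c τ *ᵥ v) = 0)
    (hf₂ : ∀ τ ∈ tame A D.π, α (D.hm *ᵥ (c τ *ᵥ v)) = f (c τ))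
    {y : ℚbar} (hy : (D.tameMap hc).Kum f y) {σ : Γℚ} (hσ : σ ∈ tame A D.π) (h1 : f (c σ) = 1)
    {j : ℕ} (hj : ¬ p ∣ j) (hju : j < p ^ 2)
    (hu : Is A p (y ^ p - 1) ((j : ℚ) / ((p ^ 2 - 1 : ℕ) : ℚ))) : False := by
  have : NeZero p := ⟨hp.out.ne_zero⟩
  obtain ⟨x, hx0, hxfix, hx⟩ := D.exists_moving G v hα hσ
    (Or.inr (by rw [hf₂ σ hσ, h1]; exact one_ne_zero))
  refine hx (gt_sub_one_step D.place not_dvd_sq_sub_one D.pi_pow (hy.step hσ h1) hj hu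
    (level_lt (by rw [mul_add, mul_one, ← sq]; omega)) ?_ hx0
    fun τ hτ e1 => hxfix τ hτ (hf₁ τ hτ) ((hf₂ τ hτ).trans (hy.zero_of_apply_eq hτ e1)))
  have hp3 : (3 : ℚ) ≤ p := by
    exact_mod_cast (show 3 ≤ p by have := hp.out.two_le; have := D.odd; omega)
  have he : (0 : ℚ) < (p : ℚ) ^ 2 - 1 := by nlinarith
  rw [cast_e]
  have hju' : (j : ℚ) < (p : ℚ) ^ 2 := by exact_mod_cast hju
  have e1 : 1 / ((p : ℚ) ^ 2 - 1) + (j : ℚ) / ((p : ℚ) ^ 2 - 1) / p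
      = ((p : ℚ) + j) / (p * ((p : ℚ) ^ 2 - 1)) := by field_simp
  have e2 : 1 / ((p : ℚ) - 1) = ((p : ℚ) * (p + 1)) / (p * ((p : ℚ) ^ 2 - 1)) := by
    rw [show (p : ℚ) ^ 2 - 1 = (p - 1) * (p + 1) by ring]
    have : (p : ℚ) - 1 ≠ 0 := by linarith
    have : (p : ℚ) + 1 ≠ 0 := by linarith
    field_simp
  rw [e1, e2, div_lt_div_iff_of_pos_right (by positivity)]
  nlinarith

end SSData

end Fermat.FLAT
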