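import Fermat.Agent.FLAT.SS.Bound

/-!
# Flat cocycles live at level `p² + 1` in the rotating coordinates only

From the bound of `Bound` and the levels of `Cocycle`: the `h`-coordinate vanishes (`fC_eq_zero`,
used in `Count`) and the rotating ones vanish at level `2` (`lead_fA_two`).
-/

set_option autoImplicit false

noncomputable section

open Fermat.EC.Val IsLocalRing Matrix

namespace Fermat.FLAT

local notation "ℚbar" => AlgebraicClosure ℚ
local notation "Γℚ" => (AlgebraicClosure ℚ ≃ₐ[ℚ] AlgebraicClosure ℚ)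

variable {p : ℕ} [hp : Fact p.Prime] {A : ValuationSubring ℚbar}
  {k : Type*} [Field k] [CharP k p] [Finite k] {r : Γℚ →* Matrix (Fin 2) (Fin 2) k}

namespace SSData

variable (D : SSData p A r) {c : Γℚ → Matrix (Fin 2) (Fin 2) k} (hc : IsAdCocycle A r c)
include hc

omit [Finite k] in
/-- The values of a cocycle on the tame group in the three coordinates. -/
lemma decomp_tame {τ : Γℚ} (hτ : τ ∈ tame A D.π) :
    c τ = D.cC (c τ) • D.hm + D.cA (c τ) • D.Y + D.cB (c τ) • (D.hm * D.Y) :=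
  D.decomp (hc.trace_eq τ (D.tame_le_dec hτ))

omit hc in
omit [Finite k] in
/-- `hm` applied twice is multiplication by `Δ`. -/
lemma hm_mulVec_hm (x : Fin 2 → k) : D.hm *ᵥ (D.hm *ᵥ x) = D.Δ • x := by
  rw [Matrix.mulVec_mulVec, D.hm_sq, Matrix.smul_mulVec, Matrix.one_mulVec]

/-- **The first rotating coordinate has leading residue `0` at level `2`.** -/
theorem lead_fA_two (G : Model A (A.decompositionSubgroup ℚ) (dualAct r c)) (β : k →+ ZMod p) :
    (D.tameMap hc).Lead (p ^ 2 - 1) 2 (D.fA β) 0 := by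
  classical
  have : NeZero p := ⟨hp.out.ne_zero⟩
  have hp3 : 3 ≤ p := by have := hp.out.two_le; have := D.odd; omega
  obtain ⟨l, hl⟩ := (D.lev_two hc (D.killed_fA_fB hc β).1).exists_lead
  by_cases hl0 : l = 0
  · exact hl0 ▸ hl
  exfalso
  -- a nonzero lead gives two Kummer steps of level `2` seen through `α`: too much ramification
  obtain ⟨l', hl'⟩ := (D.lev_two hc (D.killed_fA_fB hc β).2).exists_lead
  have hrel := D.lead_rel hc (Or.inl rfl) hl hl'
  obtain ⟨v₀, lam, hlam, hlamh⟩ := D.exists_vector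
  set ι := ZMod.castHom (dvd_refl p) k
  set α : (Fin 2 → k) →+ ZMod p := β.comp lam.toAddMonoidHom with hαd
  have hαapp : ∀ x, α x = β (lam x) := fun _ => rfl
  have hα : α ≠ 0 := fun e0 => hl0 <| by
    have h0 : β = 0 := AddMonoidHom.ext fun x => by
      have := DFunLike.congr_fun e0 (x • v₀)
      rwa [hαapp, map_smul, hlam, smul_eq_mul, mul_one] at this
    exact TameMap.Lead.unique D.place not_dvd_sq_sub_one D.pi_pow
      (fun hd => by have := Nat.le_of_dvd two_pos hd; omega) (level_lt (by nlinarith)) hl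
      ((TameMap.lead_zero 2).congr fun σ _ => by simp [h0])
  set v := D.y⁻¹ • (D.Y *ᵥ v₀) with hv
  have hYv : D.Y *ᵥ v = v₀ := by
    rw [hv, Matrix.mulVec_smul, Matrix.mulVec_mulVec, D.Y_sq, Matrix.smul_mulVec,
      Matrix.one_mulVec, smul_smul, inv_mul_cancel₀ D.y_ne_zero, one_smul]
  set f₁ := D.fC (β.comp (AddMonoidHom.mulRight (lam (D.hm *ᵥ v)))) + D.fA β with hf₁
  set f₂ := D.fC (β.comp (AddMonoidHom.mulRight (D.Δ * lam v))) + D.Δp.val • D.fB β with hf₂
  have e₁ : ∀ τ ∈ tame A D.π, α (c τ *ᵥ v) = f₁ (c τ) := by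
    intro τ hτ
    rw [hαapp]
    conv_lhs => rw [D.decomp_tame hc hτ]
    simp only [Matrix.add_mulVec, Matrix.smul_mulVec, ← Matrix.mulVec_mulVec, hYv, map_add,
      map_smul, hlam, hlamh, smul_eq_mul, mul_one, mul_zero, add_zero, hf₁,
      AddMonoidHom.add_apply, fA_apply, fC_apply, AddMonoidHom.comp_apply,
      AddMonoidHom.coe_mulRight]
  have e₂ : ∀ τ ∈ tame A D.π, α (D.hm *ᵥ (c τ *ᵥ v)) = f₂ (c τ) := by
    intro τ hτ
    rw [hαapp]
    conv_lhs => rw [D.decomp_tame hc hτ]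
    simp only [Matrix.add_mulVec, Matrix.smul_mulVec, ← Matrix.mulVec_mulVec, hYv,
      Matrix.mulVec_add, Matrix.mulVec_smul, D.hm_mulVec_hm, map_add, map_smul, hlam, hlamh,
      smul_eq_mul, mul_one,
      mul_zero, add_zero, hf₂, AddMonoidHom.add_apply, AddMonoidHom.smul_apply,
      fB_apply, fC_apply, AddMonoidHom.comp_apply, AddMonoidHom.coe_mulRight]
    rw [nsmul_eq_mul, ZMod.natCast_zmod_val, ← apply_cast_mul β, ← D.Δ_eq, mul_comm D.Δ (D.cB _)]
  have hC : ∀ b : k →+ ZMod p, (D.tameMap hc).Lead (p ^ 2 - 1) 2 (D.fC b) 0 := fun b =>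
    (D.lev_fC hc b).lead_zero D.place sq_sub_one_ne_zero D.pi_pow (by omega)
  have L₁ : (D.tameMap hc).Lead (p ^ 2 - 1) 2 f₁ l := by
    have := TameMap.Lead.add D.place not_dvd_sq_sub_one D.pi_pow two_pos
      (hC (β.comp (AddMonoidHom.mulRight (lam (D.hm *ᵥ v))))) hl
    rwa [zero_add] at this
  have := charP_res D.place
  have hw2 : (D.Δp.val : ResidueField A) = D.w * D.w := by
    rw [← map_natCast (ZMod.castHom (dvd_refl p) (ResidueField A)), ZMod.natCast_zmod_val, Δp,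
      map_sub, _root_.map_mul, _root_.map_pow, map_natCast, map_natCast, map_ofNat, D.t_res,
      D.χ_res, w, pow_succ]
    ring
  have L₂ : (D.tameMap hc).Lead (p ^ 2 - 1) 2 f₂ (-(D.w * l)) := by
    have := TameMap.Lead.add D.place not_dvd_sq_sub_one D.pi_pow two_pos
      (hC (β.comp (AddMonoidHom.mulRight (D.Δ * lam v))))
      (TameMap.Lead.nsmul D.place not_dvd_sq_sub_one D.pi_pow two_pos hl' D.Δp.val)
    rwa [zero_add, hw2, mul_assoc, hrel, mul_neg] at this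
  have hl2 : -(D.w * l) ≠ 0 := neg_ne_zero.mpr (mul_ne_zero D.w_ne_zero hl0)
  have hpn : ¬ p ∣ 2 := fun hd => by have := Nat.le_of_dvd two_pos hd; omega
  have hnot : ∀ n : ℕ, -D.w ≠ (n : ResidueField A) := fun n e0 => by
    have h1 := congrArg (· ^ p) e0
    simp only [(hp.out.odd_of_ne_two D.odd).neg_pow, D.w_pow_p, D.natCast_pow_p] at h1
    rw [← e0, neg_neg] at h1
    have : (2 : ResidueField A) * D.w = 0 := by linear_combination h1
    exact D.w_ne_zero ((mul_eq_zero.mp this).resolve_left (two_ne_zero_of_charP (p := p) D.odd))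
  have hlt : (2 : ℕ) < p * (p + 1) := by nlinarith
  rcases TameMap.multiple_or_exists (C := D.tameMap hc) f₁ f₂ with ⟨n, hn⟩ | ⟨σ₂, hσ₂, h20, h21⟩
  · refine hnot n (mul_right_cancel₀ hl0 ?_)
    rw [neg_mul]
    exact TameMap.Lead.unique D.place not_dvd_sq_sub_one D.pi_pow hpn (level_lt hlt) L₂
      ((TameMap.Lead.nsmul D.place not_dvd_sq_sub_one D.pi_pow two_pos L₁ n).congr fun σ hσ =>
        (hn σ hσ).symm)
  obtain ⟨y₁, hy₁, hu₁, hr₁⟩ := L₁.exists_is D.place sq_sub_one_ne_zero D.pi_pow hl0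
  obtain ⟨y₂, hy₂, hu₂, hr₂⟩ := L₂.exists_is D.place sq_sub_one_ne_zero D.pi_pow hl2
  obtain ⟨σ₀, hσ₀, hne⟩ : ∃ σ ∈ tame A D.π, f₁ (c σ) ≠ 0 := by
    by_contra h0
    push Not at h0
    exact hl0 (TameMap.Lead.unique D.place not_dvd_sq_sub_one D.pi_pow hpn (level_lt hlt) L₁
      ((TameMap.lead_zero 2).congr fun σ hσ => (h0 σ hσ).symm))
  refine D.no_two_steps hc G v hα e₁ e₂ hy₁ hy₂ (pow_mem hσ₀ _)
    (TameMap.apply_pow_inv_eq_one (C := D.tameMap hc) hσ₀ hne) hσ₂ h20 h21 (b := 0) (by simp)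
    two_pos
    hpn hlt hu₁ hu₂ (fun _ n hg => hnot n (mul_right_cancel₀ hl0 ?_)) ?_
  · have hπ2 := (is_pi D.place sq_sub_one_ne_zero D.pi_pow).pow D.place 2
    have hd₁ := TameMap.ge_div_pi_pow D.place D.pi_pow sq_sub_one_ne_zero hu₁.ge
    have hd₂ := TameMap.ge_div_pi_pow D.place D.pi_pow sq_sub_one_ne_zero hu₂.ge
    have h1 := Gt.div D.place hg hπ2
    rw [mul_one_div, sub_self, sub_div, mul_div_assoc] at h1
    have hnd : Ge A p ((n : ℚbar) * ((y₁ ^ p - 1) / D.π ^ 2)) 0 := by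
      simpa using (ge_natCast D.place n).mul D.place hd₁
    rw [← red_eq_iff D.place hd₂ hnd, red_mul D.place (ge_natCast D.place n) hd₁, red_natCast,
      hr₁, hr₂] at h1
    rw [neg_mul]; exact h1
  · have : (3 : ℚ) ≤ p := by exact_mod_cast hp3
    push_cast
    nlinarith

/-- The rotating coordinates have level `p² + 1`. -/
theorem lev_top (G : Model A (A.decompositionSubgroup ℚ) (dualAct r c)) (β : k →+ ZMod p) :
    (D.tameMap hc).Lev (p ^ 2 - 1) (p ^ 2 + 1) (D.fA β) ∧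
      (D.tameMap hc).Lev (p ^ 2 - 1) (p ^ 2 + 1) (D.fB β) := by
  refine ⟨D.lev_high hc (D.killed_fA_fB hc β).1 (D.lead_fA_two hc G β),
    D.lev_high hc (D.killed_fA_fB hc β).2 ?_⟩
  obtain ⟨l', hl'⟩ := (D.lev_two hc (D.killed_fA_fB hc β).2).exists_lead
  have := D.lead_rel hc (Or.inl rfl) (D.lead_fA_two hc G β) hl'
  rw [neg_zero, mul_eq_zero, or_iff_right D.w_ne_zero] at this
  exact this ▸ hl'

/-- **The `h`-coordinate vanishes.** A flat cocycle has zero `h`-coordinate on the tame group. -/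
theorem fC_eq_zero (G : Model A (A.decompositionSubgroup ℚ) (dualAct r c)) (β : k →+ ZMod p) :
    ∀ σ ∈ tame A D.π, D.fC β (c σ) = 0 := by
  classical
  have : NeZero p := ⟨hp.out.ne_zero⟩
  have := charP_res D.place
  have hp3 : 3 ≤ p := by have := hp.out.two_le; have := D.odd; omega
  have h5 : 3 * p ≤ p ^ 2 := by rw [sq]; exact Nat.mul_le_mul_right p hp3
  have h4 : p * (p + 1) = p ^ 2 + p := by ring
  obtain ⟨l, hl⟩ := (D.lev_fC hc β).exists_lead
  by_cases hl0 : l = 0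
  · exact D.trivial_fC hc (hl0 ▸ hl)
  exfalso
  have hpn : ¬ p ∣ p + 1 := fun hd => hp.out.not_dvd_one ((Nat.dvd_add_right (dvd_refl p)).mp hd)
  have hlt : p + 1 < p * (p + 1) := by omega
  -- a nonzero lead of level `p + 1` gives one or two Kummer steps ramifying too much
  obtain ⟨v₀, lam, hlam, hlamh⟩ := D.exists_vector
  set α : (Fin 2 → k) →+ ZMod p := β.comp lam.toAddMonoidHom with hαd
  have hαapp : ∀ x, α x = β (lam x) := fun _ => rfl
  have hα : α ≠ 0 := fun e0 => hl0 <| by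
    have h0 : β = 0 := AddMonoidHom.ext fun x => by
      have := DFunLike.congr_fun e0 (x • v₀)
      rwa [hαapp, map_smul, hlam, smul_eq_mul, mul_one] at this
    exact TameMap.Lead.unique D.place not_dvd_sq_sub_one D.pi_pow hpn (level_lt hlt) hl
      ((TameMap.lead_zero _).congr fun σ _ => by simp [h0])
  set a₀ := lam (D.Y *ᵥ v₀)
  set b₀ := lam (D.hm *ᵥ (D.Y *ᵥ v₀))
  set f₁ := D.fA (β.comp (AddMonoidHom.mulRight a₀)) + D.fB (β.comp (AddMonoidHom.mulRight b₀))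
    with hf₁
  set fJ := D.fA (β.comp (AddMonoidHom.mulRight b₀))
    + D.fB (β.comp (AddMonoidHom.mulRight (D.Δ * a₀))) with hfJ
  set f₂ := D.Δp.val • D.fC β + fJ with hf₂
  have e₁ : ∀ τ ∈ tame A D.π, α (c τ *ᵥ v₀) = f₁ (c τ) := by
    intro τ hτ
    rw [hαapp]
    conv_lhs => rw [D.decomp_tame hc hτ]
    simp only [Matrix.add_mulVec, Matrix.smul_mulVec, ← Matrix.mulVec_mulVec, map_add, map_smul,
      hlamh, smul_eq_mul, mul_zero, zero_add, hf₁, AddMonoidHom.add_apply, fA_apply,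
      fB_apply, AddMonoidHom.comp_apply, AddMonoidHom.coe_mulRight, a₀, b₀]
  have e₂ : ∀ τ ∈ tame A D.π, α (D.hm *ᵥ (c τ *ᵥ v₀)) = f₂ (c τ) := by
    intro τ hτ
    rw [hαapp]
    conv_lhs => rw [D.decomp_tame hc hτ]
    simp only [Matrix.add_mulVec, Matrix.smul_mulVec, ← Matrix.mulVec_mulVec,
      Matrix.mulVec_add, Matrix.mulVec_smul, D.hm_mulVec_hm, map_add, map_smul, hlam, smul_eq_mul,
      mul_one, hf₂, hfJ,
      AddMonoidHom.add_apply, AddMonoidHom.smul_apply, fA_apply, fB_apply, fC_apply,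
      AddMonoidHom.comp_apply, AddMonoidHom.coe_mulRight, a₀, b₀]
    rw [nsmul_eq_mul, ZMod.natCast_zmod_val, ← apply_cast_mul β, ← D.Δ_eq, mul_comm D.Δ (D.cC _)]
    abel
  have hJ : ∀ b b' : k →+ ZMod p,
      (D.tameMap hc).Lev (p ^ 2 - 1) (p ^ 2 + 1) (D.fA b + D.fB b') := fun b b' =>
    TameMap.Lev.add D.place not_dvd_sq_sub_one D.pi_pow (by omega)
      (D.lev_top hc G b).1 (D.lev_top hc G b').2
  have hΔl : (D.Δp.val : ResidueField A) * l ≠ 0 := mul_ne_zero (fun e0 => D.Δp_ne_zero (by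
    rw [CharP.cast_eq_zero_iff (ResidueField A) p] at e0
    rw [← ZMod.natCast_zmod_val D.Δp, ZMod.natCast_eq_zero_iff]; exact e0)) hl0
  have L₂ : (D.tameMap hc).Lead (p ^ 2 - 1) (p + 1) f₂ ((D.Δp.val : ResidueField A) * l) := by
    have := TameMap.Lead.add D.place not_dvd_sq_sub_one D.pi_pow (by omega)
      (TameMap.Lead.nsmul D.place not_dvd_sq_sub_one D.pi_pow (by omega) hl D.Δp.val)
      ((hJ (β.comp (AddMonoidHom.mulRight b₀))
        (β.comp (AddMonoidHom.mulRight (D.Δ * a₀)))).lead_zero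
        D.place sq_sub_one_ne_zero D.pi_pow (m := p + 1) (by omega))
    rwa [add_zero] at this
  obtain ⟨y₂, hy₂, hu₂, -⟩ := L₂.exists_is D.place sq_sub_one_ne_zero D.pi_pow hΔl
  rcases TameMap.multiple_or_exists (C := D.tameMap hc) f₁ f₂ with ⟨n, hn⟩ | ⟨σ₂, hσ₂, h20, h21⟩
  · refine hΔl (TameMap.Lead.unique D.place not_dvd_sq_sub_one D.pi_pow hpn (level_lt hlt) L₂ ?_)
    have := TameMap.Lead.nsmul D.place not_dvd_sq_sub_one D.pi_pow (n := p + 1) (by omega)
      ((hJ (β.comp (AddMonoidHom.mulRight a₀)) (β.comp (AddMonoidHom.mulRight b₀))).lead_zero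
        D.place sq_sub_one_ne_zero D.pi_pow (m := p + 1) (by omega)) n
    rw [mul_zero] at this
    exact this.congr fun σ hσ => (hn σ hσ).symm
  obtain ⟨l₁, hl₁⟩ := (hJ (β.comp (AddMonoidHom.mulRight a₀))
    (β.comp (AddMonoidHom.mulRight b₀))).exists_lead
  by_cases h₁ : ∀ σ ∈ tame A D.π, f₁ (c σ) = 0
  · exact D.no_one_step hc G v₀ hα (fun τ hτ => (e₁ τ hτ).trans (h₁ τ hτ)) e₂ hy₂ hσ₂ h21 hpn
      (by omega) hu₂
  have hl₁0 : l₁ ≠ 0 := fun e0 => h₁ fun σ hσ => by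
    rw [e0] at hl₁
    have hA := (D.killed_fA_fB hc (β.comp (AddMonoidHom.mulRight a₀))).1
    have hB := (D.killed_fA_fB hc (β.comp (AddMonoidHom.mulRight b₀))).2
    refine D.trivial_of_high hc (fun τ hτ => ?_) hl₁ σ hσ
    have := congrArg₂ (· + ·) (hA τ hτ) (hB τ hτ)
    simp only [add_zero] at this
    simp only [AddMonoidHom.add_apply]
    linear_combination this
  push Not at h₁
  obtain ⟨σ₀, hσ₀, hne⟩ := h₁
  obtain ⟨y₁, hy₁, hu₁, -⟩ := hl₁.exists_is D.place sq_sub_one_ne_zero D.pi_pow hl₁0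
  refine D.no_two_steps hc G v₀ hα e₁ e₂ hy₁ hy₂ (pow_mem hσ₀ _)
    (TameMap.apply_pow_inv_eq_one (C := D.tameMap hc) hσ₀ hne) hσ₂ h20 h21 (b := p - 1) ?_
    (by omega)
    (fun hd => hp.out.not_dvd_one ((Nat.dvd_add_right (dvd_pow_self p two_ne_zero)).mp hd))
    (by omega) hu₁ hu₂ (fun h0 => by omega) ?_
  · obtain ⟨q, rfl⟩ : ∃ q, p = q + 1 := ⟨p - 1, by omega⟩
    rw [Nat.add_sub_cancel]; ring
  · have : (3 : ℚ) ≤ p := by exact_mod_cast hp3
    push_cast
    nlinarith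

end SSData

end Fermat.FLAT
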