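import Fermat.Agent.FLAT.SS.Data

/-!
# Coordinates on trace zero matrices attached to the residual data

With `h = 2 g - t` and `Y` the image of Frobenius, trace zero matrices are `c h + a Y + b h Y`;
conjugation by `g` fixes `c` and rotates `(a, b)`.
-/

set_option autoImplicit false
set_option linter.unusedSectionVars false

noncomputable section

open IsLocalRing Matrix

namespace Fermat.FLAT

local notation "ℚbar" => AlgebraicClosure ℚ
local notation "Γℚ" => (AlgebraicClosure ℚ ≃ₐ[ℚ] AlgebraicClosure ℚ)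

variable {p : ℕ} [hp : Fact p.Prime] {A : ValuationSubring ℚbar}
  {k : Type*} [Field k] [CharP k p]

/-- Additive functionals commute with natural scalars. -/
lemma apply_natCast_mul (β : k →+ ZMod p) (n : ℕ) (x : k) :
    β ((n : k) * x) = (n : ZMod p) * β x := by
  rw [← nsmul_eq_mul, map_nsmul, nsmul_eq_mul]

/-- Additive functionals commute with prime field scalars. -/
lemma apply_cast_mul (β : k →+ ZMod p) (a : ZMod p) (x : k) :
    β (ZMod.castHom (dvd_refl p) k a * x) = a * β x := by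
  have : NeZero p := ⟨hp.out.ne_zero⟩
  conv_lhs => rw [← ZMod.natCast_zmod_val a, map_natCast, apply_natCast_mul, ZMod.natCast_zmod_val]

namespace SSData

variable {r : Γℚ →* Matrix (Fin 2) (Fin 2) k} (D : SSData p A r)

/-- The residue of the root of unity. -/
def u : ResidueField A := red A D.z

/-- The image of the move. -/
def g : Matrix (Fin 2) (Fin 2) k := r D.γ

/-- The image of Frobenius. -/
def Y : Matrix (Fin 2) (Fin 2) k := r D.φ

/-- The trace zero part of `g`. -/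
def hm : Matrix (Fin 2) (Fin 2) k := (2 : k) • D.g - (D.t : k) • 1

/-- The discriminant `t² - 4 χ` of the image of the move. -/
def Δ : k := (D.t : k) ^ 2 - 4 * (D.χ : k)

/-- The discriminant in the prime field. -/
def Δp : ZMod p := (D.t : ZMod p) ^ 2 - 4 * (D.χ : ZMod p)

/-- `u^(p² - 1) = 1`. -/
lemma u_pow_e : D.u ^ (p ^ 2 - 1) = 1 := by
  rw [u, ← red_pow D.place (is_root_unity D.place sq_sub_one_ne_zero D.prim_z.pow_eq_one).ge,
    D.prim_z.pow_eq_one, red_one]

/-- `u` has order `p² - 1`. -/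
lemma dvd_of_u_pow {m : ℕ} (hm : D.u ^ m = 1) : p ^ 2 - 1 ∣ m :=
  D.prim_z.dvd_of_pow_eq_one m (red_root_eq_one D.place not_dvd_sq_sub_one
    (by rw [← pow_mul, mul_comm, pow_mul, D.prim_z.pow_eq_one, one_pow])
    (by rw [red_pow D.place (is_root_unity D.place sq_sub_one_ne_zero D.prim_z.pow_eq_one).ge, ← u,
          hm]))

/-- `u ≠ 0`. -/
lemma u_ne_zero : D.u ≠ 0 := fun e => by
  have := D.u_pow_e
  rw [e, zero_pow sq_sub_one_ne_zero] at this
  exact zero_ne_one this

/-- Equal powers of `u` have exponents congruent modulo `p² - 1`. -/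
lemma modEq_of_u_pow {a b : ℕ} (hab : D.u ^ a = D.u ^ b) : a ≡ b [MOD p ^ 2 - 1] := by
  rcases le_total a b with hle | hle
  · rw [Nat.modEq_iff_dvd' hle]
    refine D.dvd_of_u_pow (mul_left_cancel₀ (pow_ne_zero a D.u_ne_zero) ?_)
    rw [← pow_add, Nat.add_sub_cancel' hle, hab, mul_one]
  · refine Nat.ModEq.symm ?_
    rw [Nat.modEq_iff_dvd' hle]
    refine D.dvd_of_u_pow (mul_left_cancel₀ (pow_ne_zero b D.u_ne_zero) ?_)
    rw [← pow_add, Nat.add_sub_cancel' hle, hab, mul_one]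

/-- `u` is not in the prime field. -/
lemma u_pow_p_ne : D.u ^ p ≠ D.u := fun e => by
  have h1 := D.modEq_of_u_pow (a := p) (b := 1) (by rw [pow_one]; exact e)
  have hp2 := hp.out.two_le
  have h2 : p * 2 ≤ p ^ 2 := by rw [sq]; exact Nat.mul_le_mul_left p hp2
  have := h1.eq_of_lt_of_lt (by omega) (by omega)
  omega

omit [CharP k p] in
/-- Natural numbers are fixed by the `p`-th power in the residue field. -/
lemma natCast_pow_p (D : SSData p A r) (n : ℕ) : (n : ResidueField A) ^ p = n := by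
  have := charP_res D.place
  rw [← map_natCast (ZMod.castHom (dvd_refl p) (ResidueField A)), ← _root_.map_pow, ZMod.pow_card]

/-- The conjugate of `u` is `t - u`. -/
lemma u_conj : D.u ^ p = (D.t : ResidueField A) - D.u := by
  have := charP_res D.place
  have h8 := congrArg (frobenius (ResidueField A) p) D.res_eq
  rw [map_add, _root_.map_mul, _root_.map_pow, frobenius_def, frobenius_def, frobenius_def,
    D.natCast_pow_p, D.natCast_pow_p] at h8
  change (D.u ^ p) ^ 2 + _ = _ * D.u ^ p at h8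
  have hres : D.u ^ 2 + (D.χ : ResidueField A) = (D.t : ResidueField A) * D.u := D.res_eq
  have h9 : (D.u ^ p - D.u) * (D.u ^ p + D.u - (D.t : ResidueField A)) = 0 := by
    linear_combination h8 - hres
  rw [← sub_eq_zero]
  linear_combination (mul_eq_zero.mp h9).resolve_left (sub_ne_zero.mpr D.u_pow_p_ne)

/-- `t = u + u^p` in the residue field. -/
lemma t_res : (D.t : ResidueField A) = D.u + D.u ^ p := by rw [D.u_conj]; ring

/-- `χ = u^(p + 1)` in the residue field. -/
lemma χ_res : (D.χ : ResidueField A) = D.u ^ (p + 1) := by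
  have hres : D.u ^ 2 + (D.χ : ResidueField A) = (D.t : ResidueField A) * D.u := D.res_eq
  rw [pow_succ, D.u_conj]
  linear_combination hres

/-- **The discriminant is not a square in the prime field.** -/
lemma Δp_not_square (s : ZMod p) : s ^ 2 ≠ D.Δp := fun hs => by
  have := charP_res D.place
  set ι := ZMod.castHom (dvd_refl p) (ResidueField A)
  have h1 : ι s ^ 2 = (D.u - D.u ^ p) ^ 2 := by
    rw [← _root_.map_pow, hs, Δp, map_sub, _root_.map_pow, _root_.map_mul, map_natCast,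
      map_natCast, map_ofNat, D.t_res, D.χ_res, pow_succ]
    ring
  have h2 : (D.u - D.u ^ p) ^ p = D.u - D.u ^ p := by
    have hs' : ι s ^ p = ι s := by rw [← _root_.map_pow, ZMod.pow_card]
    rcases sq_eq_sq_iff_eq_or_eq_neg.mp h1.symm with h3 | h3 <;> rw [h3]
    · exact hs'
    · rw [(hp.out.odd_of_ne_two D.odd).neg_pow, hs']
  have : Fact (2 < p) := ⟨lt_of_le_of_ne hp.out.two_le (Ne.symm D.odd)⟩
  rw [sub_pow_char, ← pow_mul, ← sq, show D.u ^ p ^ 2 = D.u from ?_] at h2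
  · have h4 : (D.u - D.u ^ p) * 2 = 0 := by linear_combination -h2
    refine D.u_pow_p_ne (sub_eq_zero.mp ((mul_eq_zero.mp h4).resolve_right ?_)).symm
    exact (two_ne_zero_of_charP (p := p) D.odd : (2 : ResidueField A) ≠ 0)
  · conv_lhs => rw [← Nat.sub_add_cancel (Nat.one_le_pow 2 p hp.out.pos), pow_succ, D.u_pow_e,
      one_mul]

/-- The discriminant is nonzero modulo `p`. -/
lemma Δp_ne_zero : D.Δp ≠ 0 := fun e => D.Δp_not_square 0 (by rw [e]; ring)

/-- `Δ` is the image of `Δp`. -/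
lemma Δ_eq : D.Δ = ZMod.castHom (dvd_refl p) k D.Δp := by
  rw [Δ, Δp, map_sub, _root_.map_pow, _root_.map_mul, map_natCast, map_natCast, map_ofNat]

/-- The discriminant is nonzero. -/
lemma Δ_ne_zero : D.Δ ≠ 0 := by
  rw [D.Δ_eq]; exact (map_ne_zero _).mpr D.Δp_ne_zero

/-- `2 ≠ 0` in `k`. -/
lemma two_ne (D : SSData p A r) : (2 : k) ≠ 0 := two_ne_zero_of_charP (p := p) D.odd

/-- `χ ≠ 0` in `k`. -/
lemma χ_ne_zero : (D.χ : k) ≠ 0 := fun e => by
  have h1 := (CharP.cast_eq_zero_iff k p D.χ).mp e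
  have := charP_res D.place
  have h2 := D.χ_res
  rw [(CharP.cast_eq_zero_iff (ResidueField A) p D.χ).mpr h1] at h2
  exact pow_ne_zero _ D.u_ne_zero h2.symm

/-- The characteristic equation of `g`. -/
lemma g_sq : D.g * D.g = (D.t : k) • D.g - (D.χ : k) • 1 := by
  rw [DS.mul_self_eq, g, D.trace_eq, D.det_eq]

/-- `h² = Δ`. -/
lemma hm_sq : D.hm * D.hm = D.Δ • 1 := by
  have := half_mul_self D.g
  rwa [g, D.trace_eq, D.det_eq] at this

/-- `h` has trace zero. -/
lemma trace_hm : D.hm.trace = 0 := by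
  rw [hm, Matrix.trace_sub, Matrix.trace_smul, Matrix.trace_smul, Matrix.trace_one, g, D.trace_eq,
    Fintype.card_fin, smul_eq_mul, smul_eq_mul]
  push_cast; ring

/-- `h` is not scalar. -/
lemma hm_not_scalar (s : k) : D.hm ≠ s • 1 := fun e => by
  refine D.not_scalar ((s + D.t) / 2) (smul_right_injective _ D.two_ne ?_)
  simp only [smul_smul, mul_div_cancel₀ _ D.two_ne, add_smul]
  rw [← e, hm, g]; abel

/-- `h` commutes with `g`. -/
lemma hm_comm_g : D.hm * D.g = D.g * D.hm := by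
  simp [hm, sub_mul, mul_sub]

/-- `Y` carries `g` to `t - g`. -/
lemma Y_g : D.Y * D.g = ((D.t : k) • 1 - D.g) * D.Y := D.frob_rel

/-- `Y` anticommutes with `h`. -/
lemma Y_hm : D.Y * D.hm = -(D.hm * D.Y) := by
  simp only [hm, mul_sub, sub_mul, Matrix.mul_smul, Matrix.smul_mul, mul_one, one_mul, D.Y_g]
  module

/-- `r σ⁻¹` is a right inverse of `r σ`. -/
lemma r_mul_inv (σ : Γℚ) : r σ * r σ⁻¹ = 1 := by rw [← map_mul, mul_inv_cancel, map_one]

/-- `r σ⁻¹` is a left inverse of `r σ`. -/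
lemma r_inv_mul (σ : Γℚ) : r σ⁻¹ * r σ = 1 := by rw [← map_mul, inv_mul_cancel, map_one]

/-- The inverse of `g`. -/
lemma g_inv : r D.γ⁻¹ = (D.χ : k)⁻¹ • ((D.t : k) • 1 - D.g) := by
  have h1 : D.g * ((D.χ : k)⁻¹ • ((D.t : k) • 1 - D.g)) = 1 := by
    rw [Matrix.mul_smul, mul_sub, Matrix.mul_smul, mul_one, D.g_sq, sub_sub_cancel, smul_smul,
      inv_mul_cancel₀ D.χ_ne_zero, one_smul]
  calc r D.γ⁻¹ = r D.γ⁻¹ * (D.g * ((D.χ : k)⁻¹ • ((D.t : k) • 1 - D.g))) := by rw [h1, mul_one]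
    _ = _ := by rw [← mul_assoc, g, r_inv_mul, one_mul]

/-- `Y` has trace zero. -/
lemma trace_Y : D.Y.trace = 0 := by
  have h1 := congrArg Matrix.trace (congrArg (· * D.hm) D.Y_hm)
  simp only [neg_mul, mul_assoc, D.hm_sq, Matrix.mul_smul, mul_one, Matrix.trace_smul,
    Matrix.trace_neg] at h1
  rw [Matrix.trace_mul_comm D.hm, mul_assoc, D.hm_sq, Matrix.mul_smul, mul_one, Matrix.trace_smul,
    smul_eq_mul] at h1
  have h2 : (2 * D.Δ) * D.Y.trace = 0 := by linear_combination h1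
  exact (mul_eq_zero.mp h2).resolve_left (mul_ne_zero D.two_ne D.Δ_ne_zero)

/-- The scalar `-det Y`, the square of `Y`. -/
def y : k := -D.Y.det

/-- `Y² = y`. -/
lemma Y_sq : D.Y * D.Y = D.y • 1 := by
  rw [DS.mul_self_eq, D.trace_Y, zero_smul, zero_sub, y, neg_smul]

/-- `y ≠ 0`. -/
lemma y_ne_zero : D.y ≠ 0 := neg_ne_zero.mpr fun e => by
  have := congrArg Matrix.det (r_mul_inv (r := r) D.φ)
  rw [Matrix.det_mul, ← Y, e, zero_mul, Matrix.det_one] at this
  exact zero_ne_one this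

/-- `h Y` has trace zero. -/
lemma trace_hm_Y : (D.hm * D.Y).trace = 0 := by
  have h1 := congrArg Matrix.trace D.Y_hm
  rw [Matrix.trace_mul_comm, Matrix.trace_neg] at h1
  have h2 : (2 : k) * (D.hm * D.Y).trace = 0 := by linear_combination h1
  exact (mul_eq_zero.mp h2).resolve_left D.two_ne

/-! ### Coordinates -/

/-- The coefficient of `h`. -/
def cC : Matrix (Fin 2) (Fin 2) k →+ k :=
  AddMonoidHom.mk' (fun X => (D.hm * X).trace / (2 * D.Δ))
    fun X X' => by simp only [mul_add, Matrix.trace_add, add_div]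

/-- The coefficient of `Y`. -/
def cA : Matrix (Fin 2) (Fin 2) k →+ k :=
  AddMonoidHom.mk' (fun X => (X * D.Y).trace / (2 * D.y))
    fun X X' => by simp only [add_mul, Matrix.trace_add, add_div]

/-- The coefficient of `h Y`. -/
def cB : Matrix (Fin 2) (Fin 2) k →+ k :=
  AddMonoidHom.mk' (fun X => (D.hm * X * D.Y).trace / (2 * D.y * D.Δ))
    fun X X' => by simp only [mul_add, add_mul, Matrix.trace_add, add_div]

/-- The value of `cC`. -/
lemma cC_apply (X : Matrix (Fin 2) (Fin 2) k) : D.cC X = (D.hm * X).trace / (2 * D.Δ) := rfl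

/-- The value of `cA`. -/
lemma cA_apply (X : Matrix (Fin 2) (Fin 2) k) : D.cA X = (X * D.Y).trace / (2 * D.y) := rfl

/-- The value of `cB`. -/
lemma cB_apply (X : Matrix (Fin 2) (Fin 2) k) :
    D.cB X = (D.hm * X * D.Y).trace / (2 * D.y * D.Δ) := rfl

/-- **Decomposition.** A trace zero matrix is the combination of `h`, `Y` and `h Y` with its three
coordinates. -/
theorem decomp {X : Matrix (Fin 2) (Fin 2) k} (hX : X.trace = 0) :
    X = D.cC X • D.hm + D.cA X • D.Y + D.cB X • (D.hm * D.Y) := by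
  set h := D.hm
  set Y := D.Y
  have hΔ := D.Δ_ne_zero
  have hy := D.y_ne_zero
  have h2 := D.two_ne
  -- `Δ X + h X h` commutes with `h`, so lies in the span of `1` and `h`
  obtain ⟨a, b, hP⟩ := DS.exists_eq_of_commute (fun ⟨s, hs⟩ => D.hm_not_scalar s hs)
    (h := D.Δ • X + h * X * h) (by
      simp only [mul_add, add_mul, Matrix.mul_smul, Matrix.smul_mul, ← mul_assoc, D.hm_sq, h]
      simp only [mul_assoc, D.hm_sq, Matrix.mul_smul, mul_one, one_mul]
      abel)
  -- so does `(Δ X - h X h) Y`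
  obtain ⟨a', b', hN⟩ := DS.exists_eq_of_commute (fun ⟨s, hs⟩ => D.hm_not_scalar s hs)
    (h := (D.Δ • X - h * X * h) * Y) (by
      simp only [mul_sub, sub_mul, Matrix.mul_smul, Matrix.smul_mul, ← mul_assoc, D.hm_sq, h]
      simp only [mul_assoc, Y, D.Y_hm, mul_neg, one_mul, smul_neg]
      simp only [← mul_assoc, D.hm_sq, Matrix.smul_mul, one_mul]
      simp only [mul_assoc,
        Matrix.mul_smul]
      abel)
  have hN' : D.y • (D.Δ • X - h * X * h) = a' • Y + b' • (h * Y) := by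
    have := congrArg (· * Y) hN
    simp only [mul_assoc, Y, D.Y_sq, Matrix.mul_smul, mul_one, add_mul, Matrix.smul_mul, one_mul,
      h] at this
    rw [mul_assoc]
    exact this
  -- hence `X` is a combination of `1, h, Y, h Y`; read off the coefficients by traces
  obtain ⟨a₀, b₀, c₀, d₀, hdec⟩ : ∃ a₀ b₀ c₀ d₀ : k,
      X = a₀ • 1 + b₀ • h + c₀ • Y + d₀ • (h * Y) := by
    have hs : (2 * D.Δ * D.y) • X =
        D.y • (D.Δ • X + h * X * h) + D.y • (D.Δ • X - h * X * h) := by module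
    rw [hP, hN'] at hs
    have hne : (2 * D.Δ * D.y) ≠ 0 := mul_ne_zero (mul_ne_zero h2 hΔ) hy
    refine ⟨D.y * a / (2 * D.Δ * D.y), D.y * b / (2 * D.Δ * D.y), a' / (2 * D.Δ * D.y),
      b' / (2 * D.Δ * D.y), smul_right_injective _ hne ?_⟩
    simp only [smul_add, smul_smul, mul_div_cancel₀ _ hne]
    rw [hs]; module
  have ha₀ : a₀ = 0 := by
    have := congrArg Matrix.trace hdec
    rw [hX] at this
    simp only [Matrix.trace_add, Matrix.trace_smul, Matrix.trace_one, h, Y, D.trace_hm, D.trace_Y,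
      D.trace_hm_Y, Fintype.card_fin, smul_eq_mul, mul_zero, add_zero] at this
    push_cast at this
    exact (mul_eq_zero.mp this.symm).resolve_right h2
  subst ha₀
  have hC : D.cC X = b₀ := by
    rw [cC_apply, div_eq_iff (mul_ne_zero h2 hΔ), hdec]
    simp only [mul_add, Matrix.mul_smul, mul_one, h, Y, ← mul_assoc, D.hm_sq, Matrix.smul_mul,
      one_mul, Matrix.trace_add, Matrix.trace_smul, Matrix.trace_one, D.trace_hm, D.trace_Y,
      D.trace_hm_Y, Fintype.card_fin, smul_eq_mul]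
    push_cast; ring
  have hA : D.cA X = c₀ := by
    rw [cA_apply, div_eq_iff (mul_ne_zero h2 hy), hdec]
    simp only [add_mul, Matrix.smul_mul, one_mul, h, Y, mul_assoc, D.Y_sq, Matrix.mul_smul,
      mul_one, Matrix.trace_add, Matrix.trace_smul, Matrix.trace_one, D.trace_hm, D.trace_Y,
      D.trace_hm_Y, Fintype.card_fin, smul_eq_mul]
    push_cast; ring
  have hB : D.cB X = d₀ := by
    rw [cB_apply, div_eq_iff (mul_ne_zero (mul_ne_zero h2 hy) hΔ), hdec]
    simp only [mul_add, add_mul, Matrix.mul_smul, Matrix.smul_mul, mul_one, h, Y, ← mul_assoc,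
      D.hm_sq, one_mul]
    simp only [mul_assoc, D.Y_sq, Matrix.mul_smul, mul_one, Matrix.trace_add, Matrix.trace_smul,
      Matrix.trace_one, D.trace_hm, D.trace_Y, D.trace_hm_Y, Fintype.card_fin, smul_eq_mul]
    push_cast; ring
  rw [hC, hA, hB]
  conv_lhs => rw [hdec, zero_smul, zero_add]

/-! ### Conjugation -/

/-- `X ↦ (r σ)⁻¹ X (r σ)`. -/
def Ad (r : Γℚ →* Matrix (Fin 2) (Fin 2) k) (σ : Γℚ) :
    Matrix (Fin 2) (Fin 2) k →+ Matrix (Fin 2) (Fin 2) k :=
  AddMonoidHom.mk' (fun X => r σ⁻¹ * X * r σ) fun X X' => by rw [mul_add, add_mul]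

/-- The value of `Ad`. -/
lemma Ad_apply (σ : Γℚ) (X : Matrix (Fin 2) (Fin 2) k) : Ad r σ X = r σ⁻¹ * X * r σ := rfl

/-- The coefficient of `Y` is invariant under conjugation by Frobenius. -/
lemma cA_frob (X : Matrix (Fin 2) (Fin 2) k) : D.cA (Ad r D.φ X) = D.cA X := by
  rw [cA_apply, cA_apply, Ad_apply, Matrix.trace_mul_comm]
  congr 2
  simp only [← mul_assoc, Y, r_mul_inv, one_mul]

/-- The coefficient of `h` is invariant under conjugation by `γ`. -/
lemma cC_move (X : Matrix (Fin 2) (Fin 2) k) : D.cC (Ad r D.γ X) = D.cC X := by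
  rw [cC_apply, cC_apply, Ad_apply]
  congr 1
  calc (D.hm * (r D.γ⁻¹ * X * r D.γ)).trace = (r D.γ * (D.hm * r D.γ⁻¹) * X).trace := by
        rw [mul_assoc (r D.γ⁻¹), ← mul_assoc D.hm, ← mul_assoc (D.hm * r D.γ⁻¹),
          Matrix.trace_mul_comm, mul_assoc (r D.γ)]
    _ = (D.hm * X).trace := by
      rw [← mul_assoc (r D.γ), ← g, ← D.hm_comm_g, mul_assoc D.hm D.g, g, r_mul_inv, mul_one]

/-- `g Y g⁻¹ = χ⁻¹ g² Y`. -/
lemma g_Y_g : D.g * D.Y * r D.γ⁻¹ = (D.χ : k)⁻¹ • (D.g * D.g * D.Y) := by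
  rw [D.g_inv, Matrix.mul_smul, mul_assoc, mul_sub, Matrix.mul_smul, mul_one, D.Y_g, sub_mul,
    Matrix.smul_mul, one_mul, sub_sub_cancel, ← mul_assoc]

/-- `4 g² = (t² + Δ) + 2 t h`. -/
lemma four_g_sq : (4 : k) • (D.g * D.g) =
    ((D.t : k) ^ 2 + D.Δ) • (1 : Matrix (Fin 2) (Fin 2) k) + (2 * (D.t : k)) • D.hm := by
  rw [D.g_sq, hm, Δ]; module

/-- The first coordinate after the adjoint action of `γ`, in terms of the coordinates. -/
lemma cA_move (X : Matrix (Fin 2) (Fin 2) k) :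
    4 * (D.χ : k) * D.cA (Ad r D.γ X) =
      ((D.t : k) ^ 2 + D.Δ) * D.cA X - 2 * (D.t : k) * D.Δ * D.cB X := by
  have e1 : (Ad r D.γ X * D.Y).trace = (X * (D.g * D.Y * r D.γ⁻¹)).trace := by
    rw [Ad_apply, mul_assoc, mul_assoc, Matrix.trace_mul_comm]
    simp only [← mul_assoc, g]
  have e2 : (X * (D.hm * D.Y)).trace = -(D.hm * X * D.Y).trace := by
    rw [← neg_neg (D.hm * D.Y), ← D.Y_hm, mul_neg, Matrix.trace_neg, ← mul_assoc,
      Matrix.trace_mul_comm, ← mul_assoc]
  rw [cA_apply, cA_apply, cB_apply, e1, D.g_Y_g, Matrix.mul_smul, Matrix.trace_smul, smul_eq_mul]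
  have e3 : (4 : k) * (X * (D.g * D.g * D.Y)).trace =
      ((D.t : k) ^ 2 + D.Δ) * (X * D.Y).trace + 2 * (D.t : k) * (X * (D.hm * D.Y)).trace := by
    rw [← smul_eq_mul, ← Matrix.trace_smul, ← Matrix.mul_smul, ← Matrix.smul_mul, D.four_g_sq]
    simp only [add_mul, Matrix.smul_mul, one_mul, mul_add, Matrix.mul_smul, Matrix.trace_add,
      Matrix.trace_smul, smul_eq_mul]
  rw [e2] at e3
  have := D.χ_ne_zero
  have := D.y_ne_zero
  have := D.Δ_ne_zero
  have := D.two_ne
  field_simp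
  linear_combination e3

/-- The second coordinate after the adjoint action of `γ`, in terms of the coordinates. -/
lemma cB_move (X : Matrix (Fin 2) (Fin 2) k) :
    4 * (D.χ : k) * D.cB (Ad r D.γ X) =
      ((D.t : k) ^ 2 + D.Δ) * D.cB X - 2 * (D.t : k) * D.cA X := by
  have hcomm : D.hm * r D.γ⁻¹ = r D.γ⁻¹ * D.hm := by
    rw [D.g_inv]
    simp [mul_sub, sub_mul, D.hm_comm_g]
  have e1 : (D.hm * Ad r D.γ X * D.Y).trace = (D.hm * X * (D.g * D.Y * r D.γ⁻¹)).trace := by
    rw [Ad_apply, ← mul_assoc, ← mul_assoc, hcomm, mul_assoc, mul_assoc, mul_assoc,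
      Matrix.trace_mul_comm]
    simp only [← mul_assoc, g]
  have e2 : (D.hm * X * (D.hm * D.Y)).trace = -(D.Δ * (X * D.Y).trace) := by
    rw [← neg_neg (D.hm * D.Y), ← D.Y_hm, mul_neg, Matrix.trace_neg, ← mul_assoc,
      Matrix.trace_mul_comm, ← mul_assoc, ← mul_assoc, D.hm_sq, Matrix.smul_mul, one_mul,
      Matrix.smul_mul, Matrix.trace_smul, smul_eq_mul]
  rw [cB_apply, cB_apply, cA_apply, e1, D.g_Y_g, Matrix.mul_smul, Matrix.trace_smul, smul_eq_mul]
  have e3 : (4 : k) * (D.hm * X * (D.g * D.g * D.Y)).trace =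
      ((D.t : k) ^ 2 + D.Δ) * (D.hm * X * D.Y).trace
        + 2 * (D.t : k) * (D.hm * X * (D.hm * D.Y)).trace := by
    rw [← smul_eq_mul, ← Matrix.trace_smul, ← Matrix.mul_smul, ← Matrix.smul_mul, D.four_g_sq]
    simp only [add_mul, Matrix.smul_mul, one_mul, mul_add, Matrix.mul_smul, Matrix.trace_add,
      Matrix.trace_smul, smul_eq_mul]
  rw [e2] at e3
  have := D.χ_ne_zero
  have := D.y_ne_zero
  have := D.Δ_ne_zero
  have := D.two_ne
  field_simp
  linear_combination e3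

/-- A vector `v` with `v, h v` a basis, with the first coordinate. -/
lemma exists_vector : ∃ (v : Fin 2 → k) (lam : (Fin 2 → k) →ₗ[k] k),
    lam v = 1 ∧ lam (D.hm *ᵥ v) = 0 := by
  obtain ⟨v, hv⟩ : ∃ v : Fin 2 → k, v 0 * (D.hm *ᵥ v) 1 - v 1 * (D.hm *ᵥ v) 0 ≠ 0 := by
    by_contra hc
    push Not at hc
    have h10 := hc ![1, 0]
    have h01 := hc ![0, 1]
    have h11 := hc ![1, 1]
    simp [Matrix.mulVec, dotProduct, Fin.sum_univ_two] at h10 h01 h11
    rw [h10, h01, zero_add, add_zero, sub_eq_zero] at h11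
    refine D.hm_not_scalar (D.hm 0 0) (Matrix.ext fun i j => ?_)
    fin_cases i <;> fin_cases j <;> simp [h10, h01, h11]
  set w := D.hm *ᵥ v
  let f : (Fin 2 → k) →ₗ[k] k :=
    w 1 • LinearMap.proj (0 : Fin 2) - w 0 • LinearMap.proj (1 : Fin 2)
  refine ⟨v, (v 0 * w 1 - v 1 * w 0)⁻¹ • f, ?_, ?_⟩
  · simp only [f, LinearMap.smul_apply, LinearMap.sub_apply, LinearMap.proj_apply, smul_eq_mul]
    rw [show w 1 * v 0 - w 0 * v 1 = v 0 * w 1 - v 1 * w 0 by ring, inv_mul_cancel₀ hv]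
  · simp only [f, LinearMap.smul_apply, LinearMap.sub_apply, LinearMap.proj_apply, smul_eq_mul]
    ring

end SSData

end Fermat.FLAT
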