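import Fermat.Agent.FLAT.Levels
import Fermat.Agent.FLAT.SS.Coord

/-!
# Flat adjoint cocycles: levels of their coordinate functionals

For a cocycle `c` of trace zero matrices the restriction to the tame group is additive; the
`h`-coordinate has levels `≡ p + 1`, the `(Y, hY)`-coordinates levels `≡ 2, 2p` modulo `p² - 1`.
-/

set_option autoImplicit false
set_option linter.unusedSectionVars false

noncomputable section

open Fermat.EC.Val IsLocalRing Matrix

namespace Fermat.FLAT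

local notation "ℚbar" => AlgebraicClosure ℚ
local notation "Γℚ" => (AlgebraicClosure ℚ ≃ₐ[ℚ] AlgebraicClosure ℚ)

variable {p : ℕ} [hp : Fact p.Prime] {A : ValuationSubring ℚbar}
  {k : Type*} [Field k] [CharP k p]

/-- A continuous cocycle of trace zero matrices on the decomposition group of `A`. -/
structure IsAdCocycle (A : ValuationSubring ℚbar) (r : Γℚ →* Matrix (Fin 2) (Fin 2) k)
    (c : Γℚ → Matrix (Fin 2) (Fin 2) k) : Prop where
  /-- The values on the decomposition group have trace zero. -/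
  trace_eq : ∀ σ ∈ A.decompositionSubgroup ℚ, (c σ).trace = 0
  /-- The cocycle relation for the adjoint action of `r`. -/
  map_mul : ∀ σ ∈ A.decompositionSubgroup ℚ, ∀ τ ∈ A.decompositionSubgroup ℚ,
    c (σ * τ) = c σ + r σ * c τ * r σ⁻¹
  /-- It vanishes on the decomposition elements fixing some finite normal extension of `ℚ`. -/
  level : ∃ L : IntermediateField ℚ ℚbar, FiniteDimensional ℚ L ∧ Normal ℚ L ∧
    ∀ τ ∈ A.decompositionSubgroup ℚ, τ ∈ L.fixingSubgroup → c τ = 0

/-- The action on dual number vectors `(ε-part, constant part)` of the deformation by `c`. -/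
def dualAct (r : Γℚ →* Matrix (Fin 2) (Fin 2) k) (c : Γℚ → Matrix (Fin 2) (Fin 2) k) (σ : Γℚ) :
    AddMonoid.End ((Fin 2 → k) × (Fin 2 → k)) :=
  AddMonoidHom.mk' (fun x => (r σ *ᵥ x.1 + c σ *ᵥ (r σ *ᵥ x.2), r σ *ᵥ x.2)) fun x y => by
    simp only [Prod.fst_add, Prod.snd_add, Matrix.mulVec_add, Prod.mk_add_mk]
    rw [add_add_add_comm]

/-- The value of the action on dual number vectors. -/
@[simp] lemma dualAct_apply (r : Γℚ →* Matrix (Fin 2) (Fin 2) k)
    (c : Γℚ → Matrix (Fin 2) (Fin 2) k) (σ : Γℚ) (v w : Fin 2 → k) :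
    dualAct r c σ (v, w) = (r σ *ᵥ v + c σ *ᵥ (r σ *ᵥ w), r σ *ᵥ w) := rfl

/-- A cocycle whose dual number deformation is finite flat at `A`. -/
def IsFlatCocycle (A : ValuationSubring ℚbar) (r : Γℚ →* Matrix (Fin 2) (Fin 2) k)
    (c : Γℚ → Matrix (Fin 2) (Fin 2) k) : Prop :=
  IsAdCocycle A r c ∧ Nonempty (Model A (A.decompositionSubgroup ℚ) (dualAct r c))

namespace TameMap

variable {π : ℚbar} {X : Type*} [AddCommGroup X] {C : TameMap p A π X} {e : ℕ}

/-- A functional of level `n` has zero leading residue at every lower level. -/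
lemma Lev.lead_zero (h : IsPlace A p) (he : e ≠ 0) (hπ : π ^ e = (p : ℚbar)) {m n : ℕ}
    (hmn : m < n) {f : X →+ ZMod p} (hf : C.Lev e n f) : C.Lead e m f 0 := by
  obtain ⟨y, hy, hyn⟩ := hf
  have hlt : (m : ℚ) / e < (n : ℚ) / e := div_lt_div_of_pos_right (by exact_mod_cast hmn)
    (by exact_mod_cast Nat.pos_of_ne_zero he)
  refine ⟨y, hy, hyn.mono hlt.le, ?_⟩
  rw [red_eq_zero_iff h (ge_div_pi_pow h hπ he (hyn.mono hlt.le))]
  have := Gt.div h (hyn.gt hlt) ((is_pi h he hπ).pow h m)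
  rwa [mul_one_div, sub_self] at this

end TameMap

namespace SSData

variable {r : Γℚ →* Matrix (Fin 2) (Fin 2) k} (D : SSData p A r)

/-- The tame group lies in the decomposition group. -/
lemma tame_le_dec {τ : Γℚ} (hτ : τ ∈ tame A D.π) : τ ∈ A.decompositionSubgroup ℚ :=
  inertia_le_decomposition A hτ.1

/-- Conjugation by the move preserves the tame group. -/
lemma conj_mem_tame {τ : Γℚ} (hτ : τ ∈ tame A D.π) : D.γ⁻¹ * τ * D.γ ∈ tame A D.π := by
  refine mem_tame.mpr ⟨mul_mem (mul_mem (inv_mem D.γ_mem) hτ.1) D.γ_mem, ?_⟩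
  change D.γ.symm (τ (D.γ D.π)) = D.π
  rw [AlgEquiv.symm_apply_eq, D.γ_pi, _root_.map_mul, (mem_tame.mp hτ).2,
    apply_root_eq D.place not_dvd_sq_sub_one D.prim_z.pow_eq_one (isInert_of_mem_tame hτ)]

variable {c : Γℚ → Matrix (Fin 2) (Fin 2) k} (hc : IsAdCocycle A r c)
include hc

/-- A cocycle vanishes at `1`. -/
lemma cocycle_one : c 1 = 0 := by
  have := hc.map_mul 1 (one_mem _) 1 (one_mem _)
  rw [mul_one, inv_one, map_one, one_mul, mul_one] at this
  exact left_eq_add.mp this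

omit hc in
/-- The cocycle rule at an inverse. -/
lemma cocycle_inv (hc : IsAdCocycle A r c) {σ : Γℚ} (hσ : σ ∈ A.decompositionSubgroup ℚ) :
    c σ⁻¹ + r σ⁻¹ * c σ * r σ = 0 := by
  have h1 := hc.map_mul σ⁻¹ (inv_mem hσ) σ hσ
  rw [inv_mul_cancel, inv_inv, cocycle_one hc] at h1
  exact h1.symm

/-- A cocycle is additive in a product with a tame first factor. -/
lemma map_mul_tame {σ τ : Γℚ} (hσ : σ ∈ tame A D.π) (hτ : τ ∈ A.decompositionSubgroup ℚ) :
    c (σ * τ) = c σ + c τ := by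
  rw [hc.map_mul σ (D.tame_le_dec hσ) τ hτ, D.tame_one σ hσ, D.tame_one σ⁻¹ (inv_mem hσ), one_mul,
    mul_one]

/-- The value at a conjugate of a tame element is the conjugate value. -/
lemma map_conj {δ σ : Γℚ} (hδ : δ ∈ A.decompositionSubgroup ℚ) (hσ : σ ∈ tame A D.π) :
    c (δ⁻¹ * σ * δ) = Ad r δ (c σ) := by
  rw [mul_assoc, hc.map_mul _ (inv_mem hδ) _ (mul_mem (D.tame_le_dec hσ) hδ),
    D.map_mul_tame hc hσ hδ, inv_inv, mul_add, add_mul, add_left_comm,
    cocycle_inv hc hδ, add_zero, Ad_apply]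

/-- The restriction to the tame group. -/
def tameMap : TameMap p A D.π (Matrix (Fin 2) (Fin 2) k) where
  c := c
  ξ := D.ξ
  root := D.root
  fix_root := fun _ hτ =>
    apply_zeta_p D.place sq_sub_one_ne_zero D.pi_pow (Nat.sub_one_dvd_pow_sub_one p 2) hτ
      D.root.pow_eq_one
  map_mul := fun _ hσ _ hτ => D.map_mul_tame hc hσ (D.tame_le_dec hτ)
  level := hc.level.choose
  finite := hc.level.choose_spec.1
  normal := hc.level.choose_spec.2.1
  map_fix := fun σ hσ hσ' => hc.level.choose_spec.2.2 σ (D.tame_le_dec hσ) hσ'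

/-- The move `γ` acts on the tame map by conjugation. -/
lemma move : (D.tameMap hc).Move D.γ D.z D.χ (Ad r D.γ) where
  mem := D.γ_mem
  apply_pi := D.γ_pi
  apply_root := D.γ_root
  conj_mem := fun _ hσ => D.conj_mem_tame hσ
  conj := fun _ hσ => D.map_conj hc (inertia_le_decomposition A D.γ_mem) hσ

omit hc

/-- The functional through the coefficient of `h`. -/
def fC (β : k →+ ZMod p) : Matrix (Fin 2) (Fin 2) k →+ ZMod p := β.comp D.cC

/-- The functional through the coefficient of `Y`. -/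
def fA (β : k →+ ZMod p) : Matrix (Fin 2) (Fin 2) k →+ ZMod p := β.comp D.cA

/-- The functional through the coefficient of `h Y`. -/
def fB (β : k →+ ZMod p) : Matrix (Fin 2) (Fin 2) k →+ ZMod p := β.comp D.cB

/-- The value of `fC`. -/
@[simp] lemma fC_apply (β : k →+ ZMod p) (X : Matrix (Fin 2) (Fin 2) k) :
    D.fC β X = β (D.cC X) := rfl

/-- The value of `fA`. -/
@[simp] lemma fA_apply (β : k →+ ZMod p) (X : Matrix (Fin 2) (Fin 2) k) :
    D.fA β X = β (D.cA X) := rfl

/-- The value of `fB`. -/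
@[simp] lemma fB_apply (β : k →+ ZMod p) (X : Matrix (Fin 2) (Fin 2) k) :
    D.fB β X = β (D.cB X) := rfl

/-- The middle coefficient of the quadratic killing the `(Y, hY)` coordinates. -/
def a₁ : ZMod p := 2 - (D.t : ZMod p) ^ 2 / (D.χ : ZMod p)

/-- `χ` is nonzero modulo `p`. -/
lemma χp_ne_zero : (D.χ : ZMod p) ≠ 0 := fun e => D.χ_ne_zero (by
  rw [← map_natCast (ZMod.castHom (dvd_refl p) k), e, map_zero])

/-- `χ a₁ = 2 χ - t²`. -/
lemma χ_mul_a₁ : (D.χ : ZMod p) * D.a₁ = 2 * (D.χ : ZMod p) - (D.t : ZMod p) ^ 2 := by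
  rw [a₁, mul_sub, mul_div_cancel₀ _ D.χp_ne_zero]; ring

include hc

/-- The `h`-coordinate is killed by `(S - 1) ^ 2`, for `S` the move on matrices. -/
lemma killed_fC (β : k →+ ZMod p) : (D.tameMap hc).Killed (Ad r D.γ) (p - 2) 1 (D.fC β) := by
  intro σ _
  simp only [fC_apply, D.cC_move]
  rw [Nat.cast_sub hp.out.two_le, ZMod.natCast_self]
  push_cast; ring

/-- The coordinates `fA` and `fB` of the tame map are killed by the quadratic relation of
Frobenius. -/
lemma killed_fA_fB (β : k →+ ZMod p) :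
    (D.tameMap hc).Killed (Ad r D.γ) D.a₁.val 1 (D.fA β) ∧
      (D.tameMap hc).Killed (Ad r D.γ) D.a₁.val 1 (D.fB β) := by
  have : NeZero p := ⟨hp.out.ne_zero⟩
  set ι := ZMod.castHom (dvd_refl p) k
  have hχ := D.χ_ne_zero
  have h4 : (4 : k) ≠ 0 := by
    rw [show (4 : k) = 2 * 2 by norm_num]; exact mul_ne_zero D.two_ne D.two_ne
  have ha : (D.χ : k) * ι D.a₁ = 2 * (D.χ : k) - (D.t : k) ^ 2 := by
    rw [← map_natCast ι, ← _root_.map_mul, D.χ_mul_a₁]
    simp only [map_sub, _root_.map_mul, map_natCast, map_ofNat, _root_.map_pow]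
  have hne : (4 * (D.χ : k)) ^ 2 ≠ 0 := pow_ne_zero _ (mul_ne_zero h4 hχ)
  constructor <;> intro σ _ <;>
    simp only [fA_apply, fB_apply, ZMod.natCast_zmod_val, Nat.cast_one, one_mul,
      ← apply_cast_mul β D.a₁, ← map_add] <;>
    rw [← map_zero β] <;> congr 1 <;> refine (mul_eq_zero.mp ?_).resolve_left hne <;>
    set X := (D.tameMap hc).c σ
  · have e1 := D.cA_move X
    have e2 := D.cB_move X
    have e3 := D.cA_move (Ad r D.γ X)
    rw [Δ] at *
    linear_combination (4 * (D.χ : k)) * e3 + ((D.t : k) ^ 2 + ((D.t : k) ^ 2 - 4 * D.χ)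
        + 4 * (D.χ : k) * ι D.a₁) * e1
      - (2 * (D.t : k) * ((D.t : k) ^ 2 - 4 * D.χ)) * e2
      + (4 * ((D.t : k) ^ 2 + ((D.t : k) ^ 2 - 4 * D.χ)) * D.cA X
        - 8 * (D.t : k) * ((D.t : k) ^ 2 - 4 * D.χ) * D.cB X) * ha
  · have e1 := D.cA_move X
    have e2 := D.cB_move X
    have e3 := D.cB_move (Ad r D.γ X)
    rw [Δ] at *
    linear_combination (4 * (D.χ : k)) * e3 + ((D.t : k) ^ 2 + ((D.t : k) ^ 2 - 4 * D.χ)
        + 4 * (D.χ : k) * ι D.a₁) * e2
      - (2 * (D.t : k)) * e1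
      + (4 * ((D.t : k) ^ 2 + ((D.t : k) ^ 2 - 4 * D.χ)) * D.cB X
        - 8 * (D.t : k) * D.cA X) * ha

omit hc

/-- The level `p (p + 1)` reaches the bound `p/(p - 1)`. -/
lemma deep_bound : (p : ℚ) / ((p : ℚ) - 1) ≤ ((p * (p + 1) : ℕ) : ℚ) / ((p ^ 2 - 1 : ℕ) : ℚ) := by
  have hp2 : (2 : ℚ) ≤ p := by exact_mod_cast hp.out.two_le
  rw [Nat.cast_sub (Nat.one_le_pow _ _ hp.out.pos)]
  push_cast
  rw [show (p : ℚ) ^ 2 - 1 = (p - 1) * (p + 1) by ring, mul_div_mul_right _ _ (by linarith)]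

/-- Levels below `p (p + 1)` are below that bound. -/
lemma level_lt {n : ℕ} (hn : n < p * (p + 1)) :
    (n : ℚ) / ((p ^ 2 - 1 : ℕ) : ℚ) * ((p : ℚ) - 1) < p := by
  have hp2 : (2 : ℚ) ≤ p := by exact_mod_cast hp.out.two_le
  rw [Nat.cast_sub (Nat.one_le_pow _ _ hp.out.pos)]
  push_cast
  rw [show (p : ℚ) ^ 2 - 1 = (p + 1) * (p - 1) by ring, div_mul_eq_mul_div,
    mul_div_mul_right _ _ (by linarith), div_lt_iff₀ (by linarith)]
  exact_mod_cast hn

/-- Two powers of `u` in the given ranges agree only for exponents equal or differing by `p ^ 2 -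
1`. -/
lemma root_cases {n m : ℕ} (hn : n < p * (p + 1)) (hm : m < p ^ 2 - 1)
    (h : D.u ^ n = D.u ^ m) : n = m ∨ n = m + (p ^ 2 - 1) := by
  have h1 := D.modEq_of_u_pow h
  rw [Nat.ModEq, Nat.mod_eq_of_lt hm] at h1
  have h2 := Nat.div_add_mod n (p ^ 2 - 1)
  have h3 : p * (p + 1) < 2 * (p ^ 2 - 1) + 1 := by
    have : 3 ≤ p := by have := hp.out.two_le; have := D.odd; omega
    have h4 : p * (p + 1) = p ^ 2 + p := by ring
    have h5 : 3 * p ≤ p ^ 2 := by rw [sq]; exact Nat.mul_le_mul_right p this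
    omega
  have hq : ∀ q : ℕ, q = 0 ∨ q = 1 ∨ 2 ≤ q := fun q => by omega
  rcases hq (n / (p ^ 2 - 1)) with h6 | h6 | h6
  · rw [h6, mul_zero, zero_add, h1] at h2; exact Or.inl h2.symm
  · rw [h6, mul_one, h1] at h2; exact Or.inr (by omega)
  · have : (p ^ 2 - 1) * 2 ≤ (p ^ 2 - 1) * (n / (p ^ 2 - 1)) := Nat.mul_le_mul_left _ h6
    omega

include hc

/-- Climbing the levels away from the roots. -/
theorem climb {a₁ a₀ : ℕ} {f : Matrix (Fin 2) (Fin 2) k →+ ZMod p}
    (hk : (D.tameMap hc).Killed (Ad r D.γ) a₁ a₀ f) {a b : ℕ} (ha : 0 < a) (hab : a ≤ b)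
    (hb : b ≤ p * (p + 1))
    (hroot : ∀ n, a ≤ n → n < b → p ∣ n ∨ (D.u ^ n) ^ 2 + (D.χ : ResidueField A) * a₁ * D.u ^ n
      + (D.χ : ResidueField A) ^ 2 * a₀ ≠ 0)
    (hf : (D.tameMap hc).Lev (p ^ 2 - 1) a f) : (D.tameMap hc).Lev (p ^ 2 - 1) b f := by
  induction b, hab using Nat.le_induction with
  | base => exact hf
  | succ n hn ih =>
    exact (D.move hc).lev_succ D.place not_dvd_sq_sub_one D.pi_pow (by omega)
      (level_lt (by omega)) (hroot n hn (by omega)) hk
      (ih (by omega) fun m hm hm' => hroot m hm (by omega))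

/-- A functional of level `p (p + 1)` vanishes on the tame group. -/
lemma trivial_of_top {f : Matrix (Fin 2) (Fin 2) k →+ ZMod p}
    (hf : (D.tameMap hc).Lev (p ^ 2 - 1) (p * (p + 1)) f) : ∀ σ ∈ tame A D.π, f (c σ) = 0 :=
  TameMap.eq_zero_of_deep (C := D.tameMap hc) D.place not_dvd_sq_sub_one D.pi_pow
    (Nat.sub_one_dvd_pow_sub_one p 2) deep_bound hf

omit hc

/-- The quadratic of the `h`-coordinate has no root `u ^ n`, unless `n = p + 1` or `p ∣ n`. -/
lemma root_C {n : ℕ} (hn : n < p * (p + 1)) (hne : n ≠ p + 1) :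
    p ∣ n ∨ (D.u ^ n) ^ 2 + (D.χ : ResidueField A) * ((p - 2 : ℕ) : ResidueField A) * D.u ^ n
      + (D.χ : ResidueField A) ^ 2 * ((1 : ℕ) : ResidueField A) ≠ 0 := by
  refine Or.inr fun h0 => ?_
  have := charP_res D.place
  rw [Nat.cast_sub hp.out.two_le, CharP.cast_eq_zero (ResidueField A) p] at h0
  push_cast at h0
  have h1 : (D.u ^ n - D.u ^ (p + 1)) ^ 2 = 0 := by rw [← D.χ_res]; linear_combination h0
  have h3 : p + 1 < p ^ 2 - 1 := by
    have : 3 ≤ p := by have := hp.out.two_le; have := D.odd; omega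
    have h5 : 3 * p ≤ p ^ 2 := by rw [sq]; exact Nat.mul_le_mul_right p this
    omega
  rcases D.root_cases hn h3 (sub_eq_zero.mp (pow_eq_zero_iff two_ne_zero |>.mp h1)) with h2 | h2
  · exact hne h2
  · have h4 : p * (p + 1) = p ^ 2 + p := by ring
    have := Nat.one_le_pow 2 p hp.out.pos
    omega

/-- `χ a₁ = -(u² + u^(2 p))` in the residue field. -/
lemma a₁_res : (D.χ : ResidueField A) * (D.a₁.val : ResidueField A) =
    -(D.u ^ 2 + D.u ^ (2 * p)) := by
  have := charP_res D.place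
  have : NeZero p := ⟨hp.out.ne_zero⟩
  have h1 := congrArg (ZMod.castHom (dvd_refl p) (ResidueField A)) D.χ_mul_a₁
  simp only [map_sub, _root_.map_mul, map_natCast, map_ofNat, _root_.map_pow] at h1
  rw [← map_natCast (ZMod.castHom (dvd_refl p) (ResidueField A)) D.a₁.val, ZMod.natCast_zmod_val,
    h1, D.t_res, D.χ_res, pow_succ, pow_mul']
  ring

/-- The quadratic of the other coordinates has no root `u ^ n`, unless `n` is `2` or `p ^ 2 + 1`
or divisible by `p`. -/
lemma root_J {n : ℕ} (hn : n < p * (p + 1)) (h2 : n ≠ 2) (hne : n ≠ p ^ 2 + 1) :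
    p ∣ n ∨ (D.u ^ n) ^ 2 + (D.χ : ResidueField A) * (D.a₁.val : ResidueField A) * D.u ^ n
      + (D.χ : ResidueField A) ^ 2 * ((1 : ℕ) : ResidueField A) ≠ 0 := by
  refine or_iff_not_imp_left.mpr fun hpn h0 => ?_
  rw [D.a₁_res, D.χ_res, Nat.cast_one, mul_one] at h0
  have h1 : (D.u ^ n - D.u ^ 2) * (D.u ^ n - D.u ^ (2 * p)) = 0 := by
    rw [pow_succ, pow_mul'] at *
    linear_combination h0
  have hp3 : 3 ≤ p := by have := hp.out.two_le; have := D.odd; omega
  have hp5 : 3 * p ≤ p ^ 2 := by rw [sq]; exact Nat.mul_le_mul_right p hp3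
  have h3 : 2 * p < p ^ 2 - 1 := by omega
  have h4 : p * (p + 1) = p ^ 2 + p := by ring
  rcases mul_eq_zero.mp h1 with h5 | h5
  · rcases D.root_cases hn (by omega) (sub_eq_zero.mp h5) with h6 | h6
    · exact h2 h6
    · exact hne (by omega)
  · rcases D.root_cases hn h3 (sub_eq_zero.mp h5) with h6 | h6
    · exact hpn (h6 ▸ dvd_mul_left p 2)
    · omega

include hc

/-- **The `h`-coordinate has level `p + 1`.** -/
theorem lev_fC (β : k →+ ZMod p) : (D.tameMap hc).Lev (p ^ 2 - 1) (p + 1) (D.fC β) := by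
  have h3 : 3 ≤ p := by have := hp.out.two_le; have := D.odd; omega
  have h5 : 3 * p ≤ p ^ 2 := by rw [sq]; exact Nat.mul_le_mul_right p h3
  have h4 : p * (p + 1) = p ^ 2 + p := by ring
  refine D.climb hc (D.killed_fC hc β) one_pos (by omega) (by omega)
    (fun n _ hn => D.root_C (by omega) (by omega))
    ((D.move hc).lev_one D.place not_dvd_sq_sub_one D.pi_pow ?_ (D.killed_fC hc β))
  rw [Nat.cast_sub hp.out.two_le, ZMod.natCast_self]
  push_cast
  rw [show (1 : ZMod p) + D.χ * (0 - 2) + D.χ ^ 2 * 1 = (D.χ - 1) ^ 2 by ring]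
  refine pow_ne_zero _ (sub_ne_zero.mpr fun e => ?_)
  have := charP_res D.place
  have h6 := congrArg (ZMod.castHom (dvd_refl p) (ResidueField A)) e
  rw [map_natCast, _root_.map_one, D.χ_res] at h6
  have := Nat.le_of_dvd (by omega) (D.dvd_of_u_pow h6)
  omega

/-- A functional killed by that quadratic has level at least `2`. -/
lemma lev_two {f : Matrix (Fin 2) (Fin 2) k →+ ZMod p}
    (hk : (D.tameMap hc).Killed (Ad r D.γ) D.a₁.val 1 f) :
    (D.tameMap hc).Lev (p ^ 2 - 1) 2 f := by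
  have : NeZero p := ⟨hp.out.ne_zero⟩
  have h3 : 3 ≤ p := by have := hp.out.two_le; have := D.odd; omega
  have h5 : 3 * p ≤ p ^ 2 := by rw [sq]; exact Nat.mul_le_mul_right p h3
  have h4 : p * (p + 1) = p ^ 2 + p := by ring
  refine D.climb hc hk one_pos (by omega) (by omega)
    (fun n _ hn => D.root_J (by omega) (by omega) (by omega))
    ((D.move hc).lev_one D.place not_dvd_sq_sub_one D.pi_pow ?_ hk)
  rw [ZMod.natCast_zmod_val, D.χ_mul_a₁]
  intro e
  refine D.Δp_not_square (1 - (D.χ : ZMod p)) ?_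
  rw [Δp]
  push_cast at e
  linear_combination e

/-- A vanishing leading residue at `2` lifts the level to `p² + 1`. -/
theorem lev_high {f : Matrix (Fin 2) (Fin 2) k →+ ZMod p}
    (hk : (D.tameMap hc).Killed (Ad r D.γ) D.a₁.val 1 f)
    (hl : (D.tameMap hc).Lead (p ^ 2 - 1) 2 f 0) :
    (D.tameMap hc).Lev (p ^ 2 - 1) (p ^ 2 + 1) f := by
  have h3 : 3 ≤ p := by have := hp.out.two_le; have := D.odd; omega
  have h5 : 3 * p ≤ p ^ 2 := by rw [sq]; exact Nat.mul_le_mul_right p h3
  have h4 : p * (p + 1) = p ^ 2 + p := by ring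
  exact D.climb hc hk (a := 3) (by omega) (by omega) (by omega)
    (fun n hn hn' => D.root_J (by omega) (by omega) (by omega))
    (TameMap.lev_succ_of_lead_zero D.place not_dvd_sq_sub_one D.pi_pow hl)

/-- A vanishing leading residue at `p² + 1` kills the functional. -/
theorem trivial_of_high {f : Matrix (Fin 2) (Fin 2) k →+ ZMod p}
    (hk : (D.tameMap hc).Killed (Ad r D.γ) D.a₁.val 1 f)
    (hl : (D.tameMap hc).Lead (p ^ 2 - 1) (p ^ 2 + 1) f 0) : ∀ σ ∈ tame A D.π, f (c σ) = 0 := by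
  have h3 : 3 ≤ p := by have := hp.out.two_le; have := D.odd; omega
  have h4 : p * (p + 1) = p ^ 2 + p := by ring
  have h5 : 3 * p ≤ p ^ 2 := by rw [sq]; exact Nat.mul_le_mul_right p h3
  exact D.trivial_of_top hc (D.climb hc hk (a := p ^ 2 + 1 + 1) (by omega) (by omega) le_rfl
    (fun n hn hn' => D.root_J (by omega) (by omega) (by omega))
    (TameMap.lev_succ_of_lead_zero D.place not_dvd_sq_sub_one D.pi_pow hl))

/-- A vanishing leading residue at `p + 1` kills the `h`-coordinate. -/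
theorem trivial_fC {β : k →+ ZMod p}
    (hl : (D.tameMap hc).Lead (p ^ 2 - 1) (p + 1) (D.fC β) 0) :
    ∀ σ ∈ tame A D.π, D.fC β (c σ) = 0 := by
  have h3 : 3 ≤ p := by have := hp.out.two_le; have := D.odd; omega
  have h5 : 3 * p ≤ p ^ 2 := by rw [sq]; exact Nat.mul_le_mul_right p h3
  have h4 : p * (p + 1) = p ^ 2 + p := by ring
  exact D.trivial_of_top hc (D.climb hc (D.killed_fC hc β) (a := p + 1 + 1) (by omega)
    (by omega) le_rfl
    (fun n hn hn' => D.root_C hn' (by omega))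
    (TameMap.lev_succ_of_lead_zero D.place not_dvd_sq_sub_one D.pi_pow hl))

omit hc

/-- `u - u^p`, the square root of the discriminant. -/
def w : ResidueField A := D.u - D.u ^ p

/-- `w ≠ 0`, as `u` is outside the prime field. -/
lemma w_ne_zero : D.w ≠ 0 := fun e => D.u_pow_p_ne (sub_eq_zero.mp e).symm

/-- Frobenius negates `w`. -/
lemma w_pow_p : D.w ^ p = -D.w := by
  have := charP_res D.place
  rw [w, sub_pow_char, ← pow_mul, ← sq, show D.u ^ p ^ 2 = D.u from ?_, neg_sub]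
  conv_lhs => rw [← Nat.sub_add_cancel (Nat.one_le_pow 2 p hp.out.pos), pow_succ, D.u_pow_e,
    one_mul]

/-- The trace is nonzero in the residue field. -/
lemma t_ne_zero : (D.t : ResidueField A) ≠ 0 := fun e => by
  rw [D.t_res, add_eq_zero_iff_eq_neg] at e
  have h3 : 3 ≤ p := by have := hp.out.two_le; have := D.odd; omega
  have h5 : 3 * p ≤ p ^ 2 := by rw [sq]; exact Nat.mul_le_mul_right p h3
  have h1 : D.u ^ (2 * p) = D.u ^ 2 := by
    rw [mul_comm, pow_mul]
    nth_rewrite 2 [e]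
    rw [neg_sq]
  rcases D.root_cases (n := 2 * p) (m := 2) (by nlinarith) (by omega) h1 with h2 | h2 <;> omega

include hc

/-- **The relation of the leading residues of the two rotating coordinates.** -/
theorem lead_rel {n : ℕ} (hn : n = 2 ∨ n = p ^ 2 + 1) {β : k →+ ZMod p} {l l' : ResidueField A}
    (hA : (D.tameMap hc).Lead (p ^ 2 - 1) n (D.fA β) l)
    (hB : (D.tameMap hc).Lead (p ^ 2 - 1) n (D.fB β) l') : D.w * l' = -l := by
  have : NeZero p := ⟨hp.out.ne_zero⟩
  have := charP_res D.place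
  have h3 : 3 ≤ p := by have := hp.out.two_le; have := D.odd; omega
  have hun : D.u ^ n = D.u ^ 2 := by
    rcases hn with rfl | rfl
    · rfl
    · rw [show p ^ 2 + 1 = (p ^ 2 - 1) + 2 by
        have := Nat.one_le_pow 2 p hp.out.pos; omega, pow_add, D.u_pow_e, one_mul]
  have hn0 : 0 < n := by rcases hn with rfl | rfl <;> omega
  have hpn : ¬ p ∣ n := by
    rcases hn with rfl | rfl
    · exact fun hd => by have := Nat.le_of_dvd two_pos hd; omega
    · exact fun hd => hp.out.not_dvd_one ((Nat.dvd_add_right (dvd_pow_self p two_ne_zero)).mp hd)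
  have hlt : n < p * (p + 1) := by
    have : p * (p + 1) = p ^ 2 + p := by ring
    rcases hn with rfl | rfl <;> omega
  -- four times the move of the `Y`-coordinate is a combination of the two coordinates
  set a : ZMod p := (D.t : ZMod p) ^ 2 + D.Δp with ha
  set b : ZMod p := -(2 * (D.t : ZMod p) * D.Δp) with hb
  have h1 := TameMap.Lead.nsmul D.place not_dvd_sq_sub_one D.pi_pow hn0
    ((D.move hc).lead D.place not_dvd_sq_sub_one D.pi_pow hA) 4
  have h2 := TameMap.Lead.add D.place not_dvd_sq_sub_one D.pi_pow hn0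
    (TameMap.Lead.nsmul D.place not_dvd_sq_sub_one D.pi_pow hn0 hA a.val)
    (TameMap.Lead.nsmul D.place not_dvd_sq_sub_one D.pi_pow hn0 hB b.val)
  -- leading residues being unique, this gives a linear relation
  have heq := TameMap.Lead.unique D.place not_dvd_sq_sub_one D.pi_pow hpn (level_lt hlt)
    (h1.congr (g := a.val • D.fA β + b.val • D.fB β) fun σ _ => by
      simp only [AddMonoidHom.smul_apply, AddMonoidHom.add_apply, AddMonoidHom.comp_apply,
        fA_apply, fB_apply, nsmul_eq_mul, ZMod.natCast_zmod_val]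
      rw [← mul_assoc, ← Nat.cast_mul, ← apply_natCast_mul β, ← apply_cast_mul β a,
        ← apply_cast_mul β b, ← map_add]
      congr 1
      rw [ha, hb, map_add, map_neg, _root_.map_mul, _root_.map_mul, _root_.map_pow, ← D.Δ_eq,
        map_natCast, map_ofNat]
      push_cast
      linear_combination D.cA_move ((D.tameMap hc).c σ)) h2
  have hι : ∀ x : ZMod p, (x.val : ResidueField A) = ZMod.castHom (dvd_refl p) (ResidueField A) x :=
    fun x => by
      rw [← map_natCast (ZMod.castHom (dvd_refl p) (ResidueField A)), ZMod.natCast_zmod_val]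
  rw [hι, hι, ha, hb, map_add, map_neg, _root_.map_mul, _root_.map_mul, _root_.map_pow, map_ofNat,
    map_natCast, Δp, map_sub, _root_.map_mul, _root_.map_pow, map_natCast, map_natCast, map_ofNat,
    show red A D.z = D.u from rfl, hun, D.t_res, D.χ_res, pow_succ] at heq
  push_cast at heq
  have h2' : (2 : ResidueField A) ≠ 0 := two_ne_zero_of_charP (p := p) D.odd
  have ht : D.u + D.u ^ p ≠ 0 := D.t_res ▸ D.t_ne_zero
  refine mul_left_cancel₀ (mul_ne_zero (mul_ne_zero h2' ht) D.w_ne_zero) ?_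
  rw [w] at *
  linear_combination heq

end SSData

end Fermat.FLAT
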