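import Fermat.Agent.FLAT.SS.Line

/-!
# The number of flat classes irreducible on decomposition

`exists_flat_invariant`: the leading residue at level `p² + 1` of the `Y`-coordinate determines a
flat class up to coboundaries (`Claims`, `Line`) and takes, on each functional, one of `p` values,
so there are at most `|k|` classes. It is the supersingular half of `FLAT/Tangent`.
-/

set_option autoImplicit false

noncomputable section

open Fermat.EC.Val IsLocalRing

namespace Fermat.FLAT

local notation "ℚbar" => AlgebraicClosure ℚ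
local notation "Γℚ" => (AlgebraicClosure ℚ ≃ₐ[ℚ] AlgebraicClosure ℚ)

variable {p : ℕ} [hp : Fact p.Prime] {A : ValuationSubring ℚbar}
  {k : Type*} [Field k] [CharP k p] [Finite k] {r : Γℚ →* Matrix (Fin 2) (Fin 2) k}

namespace SSData

variable (D : SSData p A r)

/-- The leading residue of the `Y`-coordinate (junk unless flat). -/
def omega (c : Γℚ → Matrix (Fin 2) (Fin 2) k) (β : k →+ ZMod p) : ResidueField A := by
  classical
  exact if h : ∃ (hc : IsAdCocycle A r c) (l : ResidueField A),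
      (D.tameMap hc).Lead (p ^ 2 - 1) (p ^ 2 + 1) (D.fA β) l then h.choose_spec.choose else 0

/-- `omega` is the leading residue of a flat cocycle. -/
lemma omega_spec {c : Γℚ → Matrix (Fin 2) (Fin 2) k} (hc : IsFlatCocycle A r c)
    (β : k →+ ZMod p) :
    (D.tameMap hc.1).Lead (p ^ 2 - 1) (p ^ 2 + 1) (D.fA β) (D.omega c β) := by
  obtain ⟨G⟩ := hc.2
  have h : ∃ (hc : IsAdCocycle A r c) (l : ResidueField A),
      (D.tameMap hc).Lead (p ^ 2 - 1) (p ^ 2 + 1) (D.fA β) l :=
    ⟨hc.1, (D.lev_top hc.1 G β).1.exists_lead⟩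
  simp only [omega, dif_pos h]
  exact h.choose_spec.choose_spec

omit [Finite k] in
/-- `omega` satisfies `ω^p = χ' ω`. -/
lemma omega_pow (c : Γℚ → Matrix (Fin 2) (Fin 2) k) (β : k →+ ZMod p) :
    D.omega c β ^ p = (D.χ' : ResidueField A) * D.omega c β := by
  classical
  rw [omega]
  split_ifs with h
  · exact D.lead_fA_pow h.choose h.choose_spec.choose_spec
  · rw [zero_pow hp.out.ne_zero, mul_zero]

/-- Flat cocycles with the same leading residues differ by a coboundary. -/
theorem coboundary_of_omega_eq (L : IntermediateField ℚ ℚbar) [FiniteDimensional ℚ L] [Normal ℚ L]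
    (hL : ∀ σ ∈ L.fixingSubgroup, r σ = 1) {ι : Type*} [Algebra (ZMod p) k]
    (b : Module.Basis ι (ZMod p) k) {c c' : Γℚ → Matrix (Fin 2) (Fin 2) k}
    (hc : IsFlatCocycle A r c) (hc' : IsFlatCocycle A r c')
    (heq : ∀ i, D.omega c (b.coord i).toAddMonoidHom = D.omega c' (b.coord i).toAddMonoidHom) :
    IsAdCoboundary A r (c - c') := by
  obtain ⟨G⟩ := hc.2
  obtain ⟨G'⟩ := hc'.2
  refine D.coboundary_of_tame L hL (hc.1.sub hc'.1) fun τ hτ => ?_
  have hn : 0 < p ^ 2 + 1 := Nat.succ_pos _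
  have hA : ∀ i, (D.tameMap (hc.1.sub hc'.1)).Lead (p ^ 2 - 1) (p ^ 2 + 1)
      (D.fA (b.coord i).toAddMonoidHom) 0 := fun i => by
    have := D.lead_sub hc.1 hc'.1 hn (D.omega_spec hc (b.coord i).toAddMonoidHom)
      (D.omega_spec hc' (b.coord i).toAddMonoidHom)
    rwa [heq i, sub_self] at this
  have hB : ∀ i, (D.tameMap (hc.1.sub hc'.1)).Lead (p ^ 2 - 1) (p ^ 2 + 1)
      (D.fB (b.coord i).toAddMonoidHom) 0 := fun i => by
    obtain ⟨l, hl⟩ := (D.lev_top hc.1 G (b.coord i).toAddMonoidHom).2.exists_lead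
    obtain ⟨l', hl'⟩ := (D.lev_top hc'.1 G' (b.coord i).toAddMonoidHom).2.exists_lead
    have hd := D.lead_sub hc.1 hc'.1 hn hl hl'
    have hrel := D.lead_rel (hc.1.sub hc'.1) (Or.inr rfl) (hA i) hd
    rw [neg_zero, mul_eq_zero, or_iff_right D.w_ne_zero] at hrel
    rwa [hrel] at hd
  have hcoord : ∀ x : k, (∀ i, b.coord i x = 0) → x = 0 := fun x hx =>
    b.forall_coord_eq_zero_iff.mp hx
  have eA : D.cA ((c - c') τ) = 0 := hcoord _ fun i =>
    D.trivial_of_high (hc.1.sub hc'.1) (D.killed_fA_fB (hc.1.sub hc'.1) _).1 (hA i) τ hτ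
  have eB : D.cB ((c - c') τ) = 0 := hcoord _ fun i =>
    D.trivial_of_high (hc.1.sub hc'.1) (D.killed_fA_fB (hc.1.sub hc'.1) _).2 (hB i) τ hτ
  have eC : D.cC ((c - c') τ) = 0 := hcoord _ fun i => by
    have h1 := D.fC_eq_zero hc.1 G (b.coord i).toAddMonoidHom τ hτ
    have h2 := D.fC_eq_zero hc'.1 G' (b.coord i).toAddMonoidHom τ hτ
    simp only [fC_apply, LinearMap.toAddMonoidHom_coe] at h1 h2
    rw [Pi.sub_apply, map_sub, map_sub, h1, h2, sub_zero]
  rw [D.decomp_tame (hc.1.sub hc'.1) hτ, eA, eB, eC, zero_smul, zero_smul, zero_smul, add_zero,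
    add_zero]

end SSData

/-- **The tangent bound for flat deformations irreducible on decomposition.**  Flat adjoint
cocycles are classified up to coboundary by at most `|k|` invariants. -/
theorem exists_flat_invariant (r : Γℚ →* Matrix (Fin 2) (Fin 2) k) (L : IntermediateField ℚ ℚbar)
    [FiniteDimensional ℚ L] [Normal ℚ L] (hL : ∀ σ ∈ L.fixingSubgroup, r σ = 1) (h : IsPlace A p)
    (hp2 : p ≠ 2) (hirr : DecompIrred A r)
    (hdet : ∀ σ ∈ A.inertiaSubgroupIn ℚ,
      (r σ).det = (((Fermat.CFT.cycChar p σ : (ZMod p)ˣ) : ZMod p).val : k)) :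
    ∃ (R : Type) (_ : Finite R) (Θ : (Γℚ → Matrix (Fin 2) (Fin 2) k) → R),
      Nat.card R ≤ Nat.card k ∧ ∀ c c', IsFlatCocycle A r c → IsFlatCocycle A r c' →
        Θ c = Θ c' → IsAdCoboundary A r (c - c') := by
  classical
  by_cases hex : ∃ c, IsFlatCocycle A r c
  swap
  · refine ⟨Unit, inferInstance, fun _ => (), ?_, fun c c' hc => absurd ⟨c, hc⟩ hex⟩
    rw [Nat.card_unique]
    exact Nat.card_pos
  obtain ⟨c₀, -, ⟨G⟩⟩ := hex
  have G₀ : Model A (A.decompositionSubgroup ℚ) (resAct r) :=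
    G.restrict (AddMonoidHom.inl (Fin 2 → k) (Fin 2 → k)) (fun a b hab => congrArg Prod.fst hab)
      fun σ _ x => by simp
  obtain ⟨D⟩ := exists_ssData r L hL h hp2 hirr hdet G₀
  let : Algebra (ZMod p) k := ZMod.algebra k p
  let b := Module.finBasis (ZMod p) k
  -- leading residues are roots of `x^p = χ' x`; record them on a basis
  let S := (Polynomial.nthRoots (p - 1) (D.χ' : ResidueField A)).toFinset ∪ {0}
  have hmem : ∀ x : ResidueField A, x ^ p = (D.χ' : ResidueField A) * x → x ∈ S := by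
    intro x hx
    rw [Finset.mem_union, Finset.mem_singleton, Multiset.mem_toFinset,
      Polynomial.mem_nthRoots (by have := hp.out.two_le; omega)]
    by_cases hx0 : x = 0
    · exact Or.inr hx0
    refine Or.inl (mul_right_cancel₀ hx0 ?_)
    rw [← pow_succ, Nat.sub_add_cancel hp.out.one_le, hx]
  have hS : S.card ≤ p := by
    refine (Finset.card_union_le _ _).trans ?_
    have h1 := (Multiset.toFinset_card_le _).trans
      (Polynomial.card_nthRoots (p - 1) (D.χ' : ResidueField A))
    rw [Finset.card_singleton]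
    have := hp.out.one_le
    omega
  refine ⟨Fin (Module.finrank (ZMod p) k) → S, inferInstance,
    fun c i => ⟨D.omega c (b.coord i).toAddMonoidHom, hmem _ (D.omega_pow c _)⟩, ?_,
    fun c c' hc hc' heq => D.coboundary_of_omega_eq L hL b hc hc' fun i =>
      congrArg Subtype.val (congrFun heq i)⟩
  rw [Nat.card_fun, Nat.card_fin, Nat.card_eq_finsetCard,
    Module.natCard_eq_pow_finrank (K := ZMod p)
    (V := k), Nat.card_zmod]
  exact Nat.pow_le_pow_left hS _

end Fermat.FLAT
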